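import Fermat.Agent.Newform.Independence
import Fermat.Agent.Newform.Character
import Fermat.Agent.Hecke.IntegralBasis
import Fermat.Agent.Hecke.ComplexAut

/-!
# An eigensystem with rational integer values at almost all primes is integral at all good primes
-/

set_option autoImplicit false

namespace Fermat.Agent.ConductorMatch

open CongruenceSubgroup ModularFormClass
open Fermat.Agent.Hecke Fermat.Agent.Newform

variable {M : ℕ} [NeZero M] {g : CuspForm (Gamma0 M) 2}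

lemma isNormalizedEigenform_conjugate (hg : g.IsNormalizedEigenform) (σ : ℂ →+* ℂ)
    {g' : CuspForm (Gamma0 M) 2} (h : ∀ n, qCoeff ⇑g' n = σ (qCoeff ⇑g n)) :
    g'.IsNormalizedEigenform where
  qCoeff_one := by rw [h, hg.qCoeff_one, map_one]
  qCoeff_mul_of_coprime m n hmn := by rw [h, h, h, hg.qCoeff_mul_of_coprime m n hmn, map_mul]
  qCoeff_prime_pow_of_not_dvd p r hp hpM := by
    rw [h, h, h, h, hg.qCoeff_prime_pow_of_not_dvd p r hp hpM]; simp
  qCoeff_prime_pow_of_dvd p r hp hpM := by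
    rw [h, h, h, hg.qCoeff_prime_pow_of_dvd p r hp hpM, map_mul]

/-- Integrality of the eigenvalues at good primes. -/
theorem exists_intCast_qCoeff (hg : g.IsNormalizedEigenform) (X : Finset ℕ)
    (hX : ∀ ℓ : ℕ, ℓ.Prime → ¬ ℓ ∣ M → ℓ ∉ X → ∃ b : ℤ, (b : ℂ) = qCoeff ⇑g ℓ)
    {ℓ : ℕ} (hℓ : ℓ.Prime) (hℓM : ¬ ℓ ∣ M) : ∃ b : ℤ, (b : ℂ) = qCoeff ⇑g ℓ := by
  obtain ⟨r, hr⟩ := exists_rat_of_fixed (x := qCoeff ⇑g ℓ) fun σ => by
    obtain ⟨g', hg'⟩ := exists_cuspForm_conjugate (k := 2) even_two σ.toRingHom g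
    have := qCoeff_prime_eq_of_agree_outside (isNormalizedEigenform_conjugate hg _ hg') hg X
      (fun r hr hrM _ hrX => by
        obtain ⟨b, hb⟩ := hX r hr hrM hrX
        rw [hg', ← hb, map_intCast]) hℓ hℓM hℓM
    rw [hg'] at this
    exact this
  obtain ⟨χ, -, hχ, -⟩ := exists_character_of_eigenform hg (∅ : Set ℕ)
  haveI := moduleFinite_heckeAlgebra M 2 (∅ : Set ℕ)
  have hint : IsIntegral ℤ (qCoeff ⇑g ℓ) := by
    rw [← hχ ℓ hℓ hℓM (Set.notMem_empty ℓ)]
    exact (IsIntegral.of_finite ℤ _).map χ.toIntAlgHom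
  rw [← hr, show ((r : ℂ)) = algebraMap ℚ ℂ r from (eq_ratCast _ r).symm,
    isIntegral_algebraMap_iff (algebraMap ℚ ℂ).injective] at hint
  obtain ⟨b, hb⟩ := IsIntegrallyClosed.isIntegral_iff.1 hint
  exact ⟨b, by rw [← hr, ← hb, eq_intCast]; push_cast; rfl⟩

end Fermat.Agent.ConductorMatch
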