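import Fermat.Agent.Deform.TraceEquiv
import Fermat.Agent.Density.Frobenius
import Fermat.Agent.GalRep.Cyclo

/-!
# Approximation by Frobenius powers for representations with rational traces
-/

set_option autoImplicit false

namespace Fermat.Agent.ConductorMatch

open Polynomial
open Fermat.Agent.Deform

local notation "Qb" => AlgebraicClosure ℚ
local notation "GQ" => (AlgebraicClosure ℚ) ≃ₐ[ℚ] (AlgebraicClosure ℚ)

/-- Sums of powers of the roots of `X² - aX + d`. -/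
def luc (a d : ℤ) : ℕ → ℤ
  | 0 => 2
  | 1 => a
  | n + 2 => a * luc a d (n + 1) - d * luc a d n

lemma luc_eq {R : Type*} [CommRing R] {a d : ℤ} (x : R) (hx : x ^ 2 - (a : R) * x + d = 0) (n : ℕ) :
    (luc a d n : R) = x ^ n + ((a : R) - x) ^ n := by
  induction n using Nat.twoStepInduction with
  | zero => simp [luc]; norm_num
  | one => simp [luc]
  | more n ih1 ih2 =>
    simp only [luc, Int.cast_sub, Int.cast_mul, ih1, ih2]
    rw [show (d : R) = x * ((a : R) - x) by linear_combination hx]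
    ring

lemma luc_dvd (a d : ℤ) (n : ℕ) :
    (X ^ 2 - C a * X + C d : ℤ[X]) ∣ X ^ (2 * n) - C (luc a d n) * X ^ n + C (d ^ n) := by
  set q : ℤ[X] := X ^ 2 - C a * X + C d
  rw [← AdjoinRoot.mk_eq_zero]
  have hq : AdjoinRoot.mk q q = 0 := AdjoinRoot.mk_self
  simp only [q, map_add, map_sub, map_mul, map_pow, AdjoinRoot.mk_X, eq_intCast, map_intCast] at hq ⊢
  rw [luc_eq (AdjoinRoot.root q) hq n,
    show (d : AdjoinRoot q) = AdjoinRoot.root q * ((a : AdjoinRoot q) - AdjoinRoot.root q) by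
      linear_combination hq, mul_pow]
  ring

lemma luc_trace {R : Type} [CommRing R] (M : Mat2 R) {a d : ℤ} (ha : M.trace = a) (hd : M.det = d)
    (n : ℕ) : (M ^ n).trace = (luc a d n : R) := by
  induction n using Nat.twoStepInduction with
  | zero => simp [luc]
  | one => simp [luc, ha]
  | more n ih1 ih2 =>
    have hch : M * M = M.trace • M - M.det • 1 := by
      ext i j
      fin_cases i <;> fin_cases j <;>
        simp [Matrix.mul_apply, Fin.sum_univ_two, Matrix.trace_fin_two, Matrix.det_fin_two] <;> ring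
    rw [pow_add, pow_two, hch, mul_sub, mul_smul_comm, mul_smul_comm, mul_one, ← pow_succ,
      Matrix.trace_sub, Matrix.trace_smul, Matrix.trace_smul, smul_eq_mul, smul_eq_mul, ih1, ih2,
      ha, hd]
    simp [luc]

/-- The cyclotomic character of `σ` modulo `p ^ k` is read off an approximating Frobenius power. -/
theorem exists_cyc_approx (p : ℕ) [Fact p.Prime] (k : ℕ) :
    ∃ F : IntermediateField ℚ Qb, FiniteDimensional ℚ F ∧
      ∀ (σ : GQ) {ℓ : ℕ} (A : ValuationSubring Qb) (φ : GQ) (β : ℕ), ℓ.Prime → ℓ ≠ p →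
        A.LiesOverPrime ℓ → A.IsFrobeniusAt φ ℓ → (∀ x ∈ F, (φ ^ β) x = σ x) →
        (GalRep.cyc p σ).val.toZModPow k = ((ℓ ^ β : ℕ) : ZMod (p ^ k)) := by
  obtain ⟨F, hF, h⟩ := GalRep.exists_cyc_level p k
  refine ⟨F, hF, fun σ ℓ A φ β hℓ hℓp hA hφ hag => ?_⟩
  obtain ⟨c, hc⟩ := h ((φ ^ β)⁻¹ * σ) fun x hx => by
    rw [AlgEquiv.mul_apply, ← hag x hx]
    exact (φ ^ β).symm_apply_apply x
  have e : (GalRep.cyc p σ).val =
      (ℓ : ℤ_[p]) ^ β * (GalRep.cyc p ((φ ^ β)⁻¹ * σ)).val := by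
    rw [← GalRep.cyc_frobenius p hℓ hℓp hA hφ, ← Units.val_pow_eq_pow_val, ← Units.val_mul,
      ← map_pow, ← map_mul, mul_inv_cancel_left]
  rw [e, map_mul, sub_eq_iff_eq_add.1 hc]
  have hp0 : ((p : ZMod (p ^ k))) ^ k = 0 := by rw [← Nat.cast_pow, ZMod.natCast_self]
  simp only [map_add, map_mul, map_pow, map_natCast, map_one, hp0, zero_mul, zero_add, mul_one,
    Nat.cast_pow]

variable {A : Type} [CommRing A] [IsLocalRing A] {ρ : GaloisRepAdic A} {r : GQ →* Mat2 A}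

/-- Frobenius powers approximate. -/
theorem exists_approx (hr : HasMatrix ρ r) {b : ℕ → ℤ} {bad : Finset ℕ}
    (hchar : ∀ ℓ : ℕ, ℓ.Prime → ℓ ∉ bad → ∀ P : ValuationSubring Qb, P.LiesOverPrime ℓ →
      ∀ φ : GQ, P.IsFrobeniusAt φ ℓ →
        LinearMap.charpoly (ρ.ρ φ) = X ^ 2 - C ((b ℓ : A)) * X + C ((ℓ : A)))
    (σ : GQ) (F : IntermediateField ℚ Qb) [FiniteDimensional ℚ F] (n : ℕ) :
    ∃ ℓ : ℕ, ℓ.Prime ∧ ℓ ∉ bad ∧ ∃ P : ValuationSubring Qb, P.LiesOverPrime ℓ ∧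
      ∃ φ : GQ, P.IsFrobeniusAt φ ℓ ∧ ∃ β : ℕ, (∀ x ∈ F, (φ ^ β) x = σ x) ∧
        (r σ).trace - (luc (b ℓ) ℓ β : A) ∈ IsLocalRing.maximalIdeal A ^ n ∧
        (r σ).det - ((ℓ ^ β : ℕ) : A) ∈ IsLocalRing.maximalIdeal A ^ n := by
  obtain ⟨L, hL, hr'⟩ := hr.matCts n
  obtain ⟨ℓ, hℓ, hbad, P, hP, φ, hφ, β, hβ⟩ :=
    Density.exists_frobenius_pow (F ⊔ L) bad σ
  refine ⟨ℓ, hℓ, hbad, P, hP, φ, hφ, β, fun x hx => hβ x ((le_sup_left : F ≤ F ⊔ L) hx), ?_⟩
  have hm := hr' ((φ ^ β)⁻¹ * σ) fun x hx => by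
    rw [AlgEquiv.mul_apply, ← hβ x ((le_sup_right : L ≤ F ⊔ L) hx)]
    exact (φ ^ β).symm_apply_apply x
  have hc := hchar ℓ hℓ hbad P hP φ hφ
  obtain ⟨bs, hbs⟩ := hr
  rw [← LinearMap.charpoly_toMatrix (ρ.ρ φ) bs, hbs, Matrix.charpoly_fin_two] at hc
  have ht : (r φ).trace = ((b ℓ : ℤ) : A) := by
    simpa using congrArg (fun Q => Polynomial.coeff Q 1) hc
  have hd : (r φ).det = (((ℓ : ℤ)) : A) := by
    simpa using congrArg (fun Q => Polynomial.coeff Q 0) hc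
  set I := IsLocalRing.maximalIdeal A ^ n
  let π := Ideal.Quotient.mk I
  have hm1 : (r ((φ ^ β)⁻¹ * σ)).map π = 1 := by
    ext i j
    rw [Matrix.map_apply, ← sub_eq_zero, show ((1 : Matrix (Fin 2) (Fin 2) (A ⧸ I)) i j) = π ((1 : Mat2 A) i j) by
      simp [Matrix.one_apply, apply_ite π], ← map_sub, Ideal.Quotient.eq_zero_iff_mem]
    exact hm i j
  have key : (r σ).map π = (r φ ^ β).map π := by
    have e : r σ = r φ ^ β * r ((φ ^ β)⁻¹ * σ) := by
      rw [← map_pow, ← map_mul, mul_inv_cancel_left]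
    rw [e, Matrix.map_mul, hm1, mul_one]
  constructor
  · rw [← luc_trace (r φ) ht hd β, ← Ideal.Quotient.eq_zero_iff_mem, map_sub, sub_eq_zero]
    show π (r σ).trace = π (r φ ^ β).trace
    have e : ∀ M : Mat2 A, π M.trace = (M.map π).trace := fun M => by
      simp [Matrix.trace_fin_two]
    rw [e, e, key]
  · rw [Nat.cast_pow, ← Int.cast_natCast ℓ, ← hd, ← Matrix.det_pow,
      ← Ideal.Quotient.eq_zero_iff_mem, map_sub, sub_eq_zero, RingHom.map_det, RingHom.map_det]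
    exact congrArg Matrix.det key

end Fermat.Agent.ConductorMatch
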