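import Fermat.Agent.GalRep.Cyclo

/-!
# Involutions of the algebraic closure of `ℚ` invert roots of unity
-/

set_option autoImplicit false

namespace Fermat.Agent.ConductorMatch

open scoped Classical

local notation "Qb" => AlgebraicClosure ℚ
local notation "GQ" => (AlgebraicClosure ℚ) ≃ₐ[ℚ] (AlgebraicClosure ℚ)

variable {c : GQ} (hc : c * c = 1) (hc1 : c ≠ 1)

lemma invol_apply {c : GQ} (hc : c * c = 1) (x : Qb) : c (c x) = x := by
  rw [← AlgEquiv.mul_apply, hc, AlgEquiv.one_apply]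

include hc hc1 in
/-- A square root of `-1` is moved. -/
theorem invol_sqrt_neg_one {i : Qb} (hi : i ^ 2 = -1) : c i = -i := by
  have h1 : c i ^ 2 = i ^ 2 := by rw [← map_pow, hi, map_neg, map_one]
  rcases sq_eq_sq_iff_eq_or_eq_neg.1 h1 with h | h
  · exfalso
    apply hc1
    ext z
    by_contra hz
    rw [AlgEquiv.one_apply] at hz
    set d := z - c z with hd
    have hd0 : d ≠ 0 := sub_ne_zero.2 (Ne.symm hz)
    have hcd : c d = -d := by rw [hd, map_sub, invol_apply hc]; ring
    obtain ⟨b, hb⟩ := IsAlgClosed.exists_pow_nat_eq d (by norm_num : 0 < 2)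
    have hb0 : b ≠ 0 := fun e => hd0 (by rw [← hb, e, zero_pow two_ne_zero])
    have hcb2 : c b ^ 2 = -b ^ 2 := by rw [← map_pow, hb, hcd]
    -- `(b · c b)² = -d²`, and `b · c b` is fixed
    have hm : c (b * c b) = b * c b := by rw [map_mul, invol_apply hc, mul_comm]
    have hsq : (i * (b * c b)) ^ 2 = d ^ 2 := by
      rw [mul_pow, mul_pow, hcb2, hi, ← hb]; ring
    have hfix : c (i * (b * c b)) = i * (b * c b) := by rw [map_mul, h, hm]
    rcases sq_eq_sq_iff_eq_or_eq_neg.1 hsq with e | e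
    · rw [e, hcd, neg_eq_self] at hfix
      exact hd0 hfix
    · rw [e, map_neg, hcd, neg_neg, self_eq_neg] at hfix
      exact hd0 hfix
  · exact h

include hc hc1 in
/-- Sums of squares of fixed elements are squares of fixed elements. -/
theorem invol_sum_sq {ι : Type*} (s : Finset ι) (f : ι → Qb) (hf : ∀ j ∈ s, c (f j) = f j) :
    ∃ w : Qb, c w = w ∧ w ^ 2 = ∑ j ∈ s, f j ^ 2 := by
  induction s using Finset.induction_on with
  | empty => exact ⟨0, map_zero c, by simp⟩
  | insert a s ha ih =>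
    obtain ⟨w, hw, hw2⟩ := ih fun j hj => hf j (Finset.mem_insert_of_mem hj)
    obtain ⟨i, hi⟩ := IsAlgClosed.exists_pow_nat_eq (-1 : Qb) (by norm_num : 0 < 2)
    obtain ⟨z, hz⟩ := IsAlgClosed.exists_pow_nat_eq (f a + i * w) (by norm_num : 0 < 2)
    refine ⟨z * c z, by rw [map_mul, invol_apply hc, mul_comm], ?_⟩
    rw [Finset.sum_insert ha, ← hw2, mul_pow, ← map_pow, hz, map_add, map_mul,
      invol_sqrt_neg_one hc hc1 hi, hw, hf a (Finset.mem_insert_self _ _)]
    linear_combination (-(w ^ 2)) * hi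

include hc hc1 in
/-- A nontrivial root of unity of odd order is moved. -/
theorem invol_root_of_unity_ne {ζ : Qb} {n : ℕ} (hn : Odd n) (hζ : ζ ^ n = 1) (hζ1 : ζ ≠ 1) :
    c ζ ≠ ζ := by
  intro hfix
  obtain ⟨k, hk⟩ := hn
  set η := ζ ^ (k + 1) with hη
  have hη2 : η ^ 2 = ζ := by
    rw [hη, ← pow_mul, show (k + 1) * 2 = n + 1 by omega, pow_succ, hζ, one_mul]
  obtain ⟨w, hw, hw2⟩ := invol_sum_sq hc hc1 (Finset.range (n - 1)) (fun j => η ^ (j + 1))
    fun j _ => by rw [map_pow, hη, map_pow, hfix]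
  have hsum : ∑ j ∈ Finset.range n, ζ ^ j = 0 := by
    have h := geom_sum_mul ζ n
    rw [hζ, sub_self, mul_eq_zero] at h
    exact h.resolve_right (sub_ne_zero.2 hζ1)
  have hw1 : w ^ 2 = -1 := by
    rw [show n = n - 1 + 1 by omega, Finset.sum_range_succ', pow_zero] at hsum
    rw [hw2, Finset.sum_congr rfl fun j _ => show (η ^ (j + 1)) ^ 2 = ζ ^ (j + 1) by
      rw [← pow_mul, mul_comm, pow_mul, hη2]]
    linear_combination hsum
  have := invol_sqrt_neg_one hc hc1 hw1
  rw [hw, self_eq_neg] at this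
  rw [this] at hw1
  norm_num at hw1

include hc hc1 in
/-- The cyclotomic character is `-1` on involutions. -/
theorem cyc_invol (p : ℕ) [Fact p.Prime] (hp : p ≠ 2) : GalRep.cyc p c = -1 := by
  have hsq : GalRep.cyc p c * GalRep.cyc p c = 1 := by rw [← map_mul, hc, map_one]
  have hv : ((GalRep.cyc p c).val - 1) * ((GalRep.cyc p c).val + 1) = 0 := by
    have := congrArg Units.val hsq
    rw [Units.val_mul, Units.val_one] at this
    linear_combination this
  rcases mul_eq_zero.1 hv with h | h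
  · exfalso
    rw [sub_eq_zero] at h
    haveI : NeZero (p ^ 1) := ⟨pow_ne_zero 1 (Fact.out (p := p.Prime)).ne_zero⟩
    obtain ⟨ζ, hζ⟩ := HasEnoughRootsOfUnity.exists_primitiveRoot Qb (p ^ 1)
    haveI : Fact (1 < p ^ 1) := ⟨by rw [pow_one]; exact (Fact.out (p := p.Prime)).one_lt⟩
    refine invol_root_of_unity_ne hc hc1 (n := p ^ 1)
      (by rw [pow_one]; exact (Fact.out (p := p.Prime)).odd_of_ne_two hp) hζ.pow_eq_one
      (hζ.ne_one (Fact.out)) ?_
    rw [GalRep.cyc_spec p c ζ hζ.pow_eq_one, h, map_one, ZMod.val_one, pow_one]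
  · exact Units.ext (by rw [Units.val_neg, Units.val_one]; linear_combination h)

end Fermat.Agent.ConductorMatch
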