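import Fermat.Agent.ConductorMatch.NodalMul
import Fermat.Agent.EC.Local.ReductionHom
import Fermat.Agent.EC.Local.VarChange
import Fermat.Agent.EC.Local.Inertia

/-!
# Inertia fixes a point of exact order `p ^ j` at multiplicative reduction
-/

set_option autoImplicit false

namespace Fermat.Agent.ConductorMatch

open WeierstrassCurve Polynomial
open Fermat.Agent.EC

variable {L : Type*} [Field L] [IsAlgClosed L] [CharZero L] [DecidableEq L] {A : ValuationSubring L}

/-- Roots of the reduction of a polynomial with unit leading coefficient lift. -/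
theorem exists_root_lift {b : A[X]} (hu : IsUnit b.leadingCoeff) {z : IsLocalRing.ResidueField A}
    (hz : (b.map (IsLocalRing.residue A)).eval z = 0) :
    ∃ a : A, (b.map (algebraMap A L)).eval (algebraMap A L a) = 0 ∧
      IsLocalRing.residue A a = z := by
  obtain ⟨a₀, rfl⟩ := IsLocalRing.residue_surjective z
  rw [Polynomial.eval_map, Polynomial.eval₂_at_apply, IsLocalRing.residue_eq_zero_iff] at hz
  have hlt : A.valuation (algebraMap A L (b.eval a₀)) < 1 := (A.valuation_lt_one_iff _).1 hz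
  have hsplit := IsAlgClosed.splits (b.map (algebraMap A L))
  rw [← Polynomial.eval₂_at_apply, ← Polynomial.eval_map, hsplit.eval_eq_prod_roots, map_mul,
    map_multiset_prod, Multiset.map_map,
    leadingCoeff_map_of_injective (Subtype.val_injective (p := fun x => x ∈ A.toSubring)),
    show A.valuation (algebraMap A L b.leadingCoeff) = 1 from
      (A.valuation_eq_one_iff _).1 hu, one_mul] at hlt
  by_contra hcon
  push Not at hcon
  refine not_le.2 hlt (le_of_eq ?_)
  symm
  refine Multiset.prod_eq_one fun w hw => ?_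
  obtain ⟨ρ, hρ, rfl⟩ := Multiset.mem_map.1 hw
  have hρA : ρ ∈ A := mem_of_aeval_eq_zero A hu (Polynomial.isRoot_of_mem_roots hρ)
  have hne := hcon ⟨ρ, hρA⟩ (Polynomial.isRoot_of_mem_roots hρ)
  show A.valuation (((a₀ - ⟨ρ, hρA⟩ : A)) : L) = 1
  refine (A.valuation_eq_one_iff _).1 ?_
  rw [← IsLocalRing.residue_ne_zero_iff_isUnit, map_sub, sub_ne_zero]
  exact Ne.symm hne

omit [IsAlgClosed L] [CharZero L] in
lemma some_congr_curve {V V' : WeierstrassCurve L} (e : V = V') {a a' b b' : L} (ea : a = a')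
    (eb : b = b') (h : V.toAffine.Nonsingular a b) (h' : V'.toAffine.Nonsingular a' b') :
    addOrderOf (Affine.Point.some a b h) = addOrderOf (Affine.Point.some a' b' h') := by
  subst e ea eb; rfl

open scoped Classical in
/-- At multiplicative reduction, inertia fixes a point of exact order `p ^ j`. -/
theorem exists_fixed_torsion (W : WeierstrassCurve A) (hΔ : ¬ IsUnit W.Δ) (hc : IsUnit W.c₄)
    {p j : ℕ} (hp : p.Prime) (hodd : Odd p) (hj : 0 < j) (hpu : IsUnit (p : A))
    [(W.map (algebraMap A L)).IsElliptic] :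
    ∃ (x y : L) (h : (W.map (algebraMap A L)).toAffine.Nonsingular x y),
      addOrderOf (Affine.Point.some x y h) = p ^ j ∧
      ∀ {F : Type} [Field F] [Algebra F L] (σ : L ≃ₐ[F] L), ActsInertially A σ →
        ∀ (h' : (W.map (algebraMap A L)).toAffine.Nonsingular (σ x) (σ y)),
          p ^ j • Affine.Point.some (σ x) (σ y) h' = 0 → σ x = x ∧ σ y = y := by
  haveI := isAlgClosed_residue A
  set res := IsLocalRing.residue A
  have hd : (W.map res).Δ = 0 := by
    rw [map_Δ, IsLocalRing.residue_eq_zero_iff]; exact hΔ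
  have hc' : (W.map res).c₄ ≠ 0 := by
    rw [map_c₄, ne_eq, IsLocalRing.residue_eq_zero_iff]; exact fun h => h hc
  obtain ⟨C₀, hC₀⟩ := exists_vc_nodal (W.map res) hd hc'
  obtain ⟨u, hu⟩ := IsLocalRing.residue_surjective (C₀.u : IsLocalRing.ResidueField A)
  obtain ⟨r, hr⟩ := IsLocalRing.residue_surjective C₀.r
  obtain ⟨s, hs⟩ := IsLocalRing.residue_surjective C₀.s
  obtain ⟨t, ht⟩ := IsLocalRing.residue_surjective C₀.t
  have huu : IsUnit u := IsLocalRing.residue_ne_zero_iff_isUnit u |>.1 (hu ▸ C₀.u.ne_zero)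
  set C : VariableChange A := ⟨huu.unit, r, s, t⟩ with hC
  set W' := C • W with hW'
  have hred : W'.map res = nodalCubic _ := by
    rw [hW', ← map_variableChange, ← hC₀]
    congr 1
    ext <;> simp [hC, VariableChange.map, res, hu, hr, hs, ht]
  set CL : VariableChange L := C.map (algebraMap A L) with hCL
  have hmapW' : W'.map (algebraMap A L) = CL • W.map (algebraMap A L) :=
    (map_variableChange _ _ _).symm
  haveI : (W'.map (algebraMap A L)).IsElliptic := by rw [hmapW']; infer_instance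
  have hinj : Function.Injective (algebraMap A L) := Subtype.val_injective
  set n := p ^ j with hn
  set m := p ^ (j - 1) with hm
  have hn1 : 1 ≤ n := Nat.one_le_pow _ _ hp.pos
  have hm1 : 1 ≤ m := Nat.one_le_pow _ _ hp.pos
  have hnu : IsUnit (n : A) := by rw [hn, Nat.cast_pow]; exact hpu.pow j
  have hmu : IsUnit (m : A) := by rw [hm, Nat.cast_pow]; exact hpu.pow _
  have hnodd : Odd n := hn ▸ hodd.pow
  obtain ⟨an, bn, habn⟩ := exists_mulPair (W := W') (φ := algebraMap A L) hinj n hn1
  obtain ⟨am, bm, habm⟩ := exists_mulPair (W := W') (φ := algebraMap A L) hinj m hm1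
  -- a primitive root of unity in the residue field
  have hnk : ((n : ℕ) : IsLocalRing.ResidueField A) ≠ 0 := by
    rw [← map_natCast res]; exact (IsLocalRing.residue_ne_zero_iff_isUnit _).2 hnu
  haveI : NeZero ((n : ℕ) : IsLocalRing.ResidueField A) := ⟨hnk⟩
  obtain ⟨ζ, hζ⟩ := HasEnoughRootsOfUnity.exists_primitiveRoot (IsLocalRing.ResidueField A) n
  have hn2 : 1 < n := hn ▸ Nat.one_lt_pow hj.ne' hp.one_lt
  have hζ1 : ζ - 1 ≠ 0 := sub_ne_zero.2 (hζ.ne_one hn2)
  set z := (ζ - 1)⁻¹ with hz
  have hz0 : z ≠ 0 := inv_ne_zero hζ1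
  have hz1 : 1 + z = ζ * z := by
    rw [hz]; field_simp; ring
  have hx0 : z ^ 2 + z ≠ 0 := by
    rw [show z ^ 2 + z = z * (1 + z) by ring, hz1]
    exact mul_ne_zero hz0 (mul_ne_zero (hζ.ne_zero (by omega)) hz0)
  have evalD : ∀ i, (nodalD (IsLocalRing.ResidueField A) i).eval z = z ^ i * (ζ ^ i - 1) := fun i => by
    simp [nodalD, hz1, mul_pow]; ring
  have hbn : (bn.map res).eval (z ^ 2 + z) = 0 := by
    have := congrArg (Polynomial.eval z) (mulPair_nodal res hinj hred n hn1 habn).2
    simpa [evalD, hζ.pow_eq_one] using this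
  have hbm : (bm.map res).eval (z ^ 2 + z) ≠ 0 := by
    have hne : ζ ^ m - 1 ≠ 0 := sub_ne_zero.2
      (hζ.pow_ne_one_of_pos_of_lt (by omega) (hm ▸ hn ▸ Nat.pow_lt_pow_right hp.one_lt (by omega)))
    have := congrArg (Polynomial.eval z) (mulPair_nodal res hinj hred m hm1 habm).2
    simp only [eval_comp, eval_add, eval_pow, eval_X, eval_mul, evalD] at this
    rw [this]
    exact mul_ne_zero (pow_ne_zero _ hx0) (pow_ne_zero _ (mul_ne_zero (pow_ne_zero _ hz0) hne))
  obtain ⟨ξ, hξ, hξz⟩ := exists_root_lift (L := L) (b := bn) (by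
    rw [leadingCoeff, natDegree_eq_of_le_of_coeff_ne_zero habn.natDegree_b
      (by rw [habn.coeff_b]; exact (hnu.pow 2).ne_zero), habn.coeff_b]
    exact hnu.pow 2) hbn
  obtain ⟨η, hη⟩ := exists_point (W := W') (φ := algebraMap A L) (algebraMap A L ξ)
  have hnP : n • Affine.Point.some _ _ hη = 0 := (habn.eval_b_eq_zero_iff hη).1 hξ
  have hmP : m • Affine.Point.some _ _ hη ≠ 0 := fun e => hbm (by
    have := habm.spec_zero _ _ hη e
    rw [Polynomial.eval_map, Polynomial.eval₂_at_apply] at this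
    rw [← hξz, Polynomial.eval_map, Polynomial.eval₂_at_apply, hinj (this.trans (map_zero _).symm),
      map_zero])
  haveI := Fact.mk hp
  have hord : addOrderOf (Affine.Point.some _ _ hη) = p ^ j := by
    rw [show j = j - 1 + 1 by omega]
    exact addOrderOf_eq_prime_pow hmP (by rwa [show j - 1 + 1 = j by omega])
  -- transfer to `W`
  set x := (CL.u : L) ^ 2 * algebraMap A L ξ + CL.r with hx
  set y := (CL.u : L) ^ 3 * η + (CL.u : L) ^ 2 * CL.s * algebraMap A L ξ + CL.t with hy
  have hvx : vcX CL x = algebraMap A L ξ := by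
    have := CL.u.ne_zero
    simp only [vcX, hx]; field_simp; ring
  have hvy : vcY CL x y = η := by
    have := CL.u.ne_zero
    simp only [vcY, hx, hy]; field_simp; ring
  have hP : (W.map (algebraMap A L)).toAffine.Nonsingular x y := by
    refine (Affine.equation_iff_nonsingular (W := (W.map (algebraMap A L)).toAffine)).1 ?_
    have he := hη.1
    rw [Affine.equation_iff] at he ⊢
    rw [hmapW'] at he
    have := CL.u.ne_zero
    simp only [variableChange_a₁, variableChange_a₂, variableChange_a₃, variableChange_a₄,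
      variableChange_a₆, Units.val_inv_eq_inv_val] at he
    field_simp at he
    simp only [hx, hy]
    linear_combination he
  refine ⟨x, y, hP, ?_, fun {F} _ _ σ hσ h' hn' => ?_⟩
  · rw [← addOrderOf_injective (vcHom CL) (vcHom_injective CL), vcHom_some]
    exact (some_congr_curve hmapW'.symm hvx hvy _ hη).trans hord
  have hxA : x ∈ A := by
    rw [hx, hCL]; exact (C.u.1 ^ 2 * ξ + C.r : A).2
  have hyA : y ∈ A := by
    rw [hy, hCL]
    have hηA : η ∈ A := y_mem_of_x_mem A W' ξ.2 hη.1
    exact ((C.u.1 ^ 3 * ⟨η, hηA⟩ + C.u.1 ^ 2 * C.s * ξ + C.t : A)).2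
  have hu1 : A.valuation (CL.u : L) = 1 := (A.valuation_eq_one_iff _).1 C.u.isUnit
  have hvs : A.valuation CL.s ≤ 1 := A.valuation_le_one C.s
  have hxd := hσ.sub_lt x ((A.valuation_le_one_iff _).2 hxA)
  have hyd := hσ.sub_lt y ((A.valuation_le_one_iff _).2 hyA)
  have hX : A.valuation (vcX CL x - vcX CL (σ x)) < 1 := by
    rw [show vcX CL x - vcX CL (σ x) = -(σ x - x) / (CL.u : L) ^ 2 by simp only [vcX]; ring,
      map_div₀, Valuation.map_neg, map_pow, hu1, one_pow, div_one]
    exact hxd
  have hY : A.valuation (vcY CL x y - vcY CL (σ x) (σ y)) < 1 := by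
    rw [show vcY CL x y - vcY CL (σ x) (σ y) = (-(σ y - y) + CL.s * (σ x - x)) / (CL.u : L) ^ 3 by
        simp only [vcY]; ring, map_div₀, map_pow, hu1, one_pow, div_one]
    exact val_add_lt _ (by rwa [Valuation.map_neg]) (val_mul_lt_one' _ hvs hxd)
  have m₁ : (W'.map (algebraMap A L)).toAffine.Nonsingular (vcX CL x) (vcY CL x y) := by
    rw [hmapW']; exact vc_nonsingular CL hP
  have m₂ : (W'.map (algebraMap A L)).toAffine.Nonsingular (vcX CL (σ x)) (vcY CL (σ x) (σ y)) := by
    rw [hmapW']; exact vc_nonsingular CL h'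
  have t₂ : n • Affine.Point.some _ _ m₂ = 0 := by
    have : addOrderOf (Affine.Point.some _ _ m₂) ∣ n := by
      rw [some_congr_curve hmapW' rfl rfl m₂ (vc_nonsingular CL h'), ← vcHom_some CL h',
        addOrderOf_injective (vcHom CL) (vcHom_injective CL)]
      exact addOrderOf_dvd_of_nsmul_eq_zero hn'
    exact addOrderOf_dvd_iff_nsmul_eq_zero.1 this
  have t₁ : n • Affine.Point.some _ _ m₁ = 0 := by
    refine addOrderOf_dvd_iff_nsmul_eq_zero.1 ?_
    rw [some_congr_curve rfl hvx hvy m₁ hη, hord]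
  have e := eq_of_congr hnu hnodd m₁ m₂ t₁ t₂ (by
    rintro ⟨hs', -⟩
    rw [hvx] at hs'
    have hlt : IsLocalRing.residue A (sP W' (ξ * ξ) (ξ + ξ) 1) = 0 := by
      rw [IsLocalRing.residue_eq_zero_iff]
      refine (A.valuation_lt_one_iff _).2 ?_
      show A.valuation (algebraMap A L (sP W' (ξ * ξ) (ξ + ξ) 1)) < 1
      rwa [← map_sP, map_mul, map_add, map_one]
    rw [← map_sP, hred, map_mul, map_add, map_one, hξz] at hlt
    simp [sP, nodalCubic, WeierstrassCurve.b₄, WeierstrassCurve.b₆, WeierstrassCurve.b₈, hx0] at hlt)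
    hX hY
  rw [Affine.Point.some.injEq, vcX_inj] at e
  obtain ⟨e1, e2⟩ := e
  rw [← e1, vcY_inj] at e2
  exact ⟨e1.symm, e2.symm⟩

end Fermat.Agent.ConductorMatch
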