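import Fermat.Agent.EC.FrobeniusTrace
import Fermat.Agent.ConductorMatch.NodalTorsion
import Fermat.Agent.EC.Local.Mult

/-!
# Frobenius relation on `E[n]` and inertia-fixed points at semistable primes
-/

set_option autoImplicit false

namespace Fermat.Agent.ConductorMatch

open WeierstrassCurve WeierstrassCurve.Affine.Point IsLocalRing
open Fermat.Agent.EC Fermat.Agent.Galois
open scoped WeierstrassCurve.Affine

local notation "Qb" => AlgebraicClosure ℚ
local notation "GQ" => (AlgebraicClosure ℚ) ≃ₐ[ℚ] (AlgebraicClosure ℚ)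

/-- The points of the generic fibre of an integral model over `ℚ̄`. -/
abbrev Pts (W : WeierstrassCurve ℤ) : Type :=
  ((W.map (Int.castRingHom ℚ)).toAffine⁄Qb).Point

/-- The transport of points to the model over a place. -/
noncomputable def toPlace (W : WeierstrassCurve ℤ) (A : ValuationSubring Qb) :
    Pts W →+ ((W.map (Int.castRingHom A)).map (algebraMap A Qb)).toAffine.Point :=
  sigmaPoint (RingHom.id Qb) (by rw [WeierstrassCurve.map_id]; exact baseChange_eq_map W A)

lemma toPlace_injective (W : WeierstrassCurve ℤ) (A : ValuationSubring Qb) :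
    Function.Injective (toPlace W A) := by
  intro P Q e
  rcases P with _ | ⟨x, y, h⟩ <;> rcases Q with _ | ⟨x', y', h'⟩
  · rfl
  · exact absurd e.symm (Affine.Point.some_ne_zero _)
  · exact absurd e (Affine.Point.some_ne_zero _)
  · have e' := (Affine.Point.some.injEq ..).mp e
    simp only [RingHom.id_apply] at e'
    rw [Affine.Point.some.injEq]; exact e'

variable (W : WeierstrassCurve ℤ)

/-- Frobenius satisfies `σ² - a_ℓ σ + ℓ = 0` on torsion of odd order prime to `ℓ`. -/
theorem frobenius_quadratic_nsmul {ℓ : ℕ} (hℓ : ℓ.Prime) (hgood : W.IsGoodPrimeFor ℓ)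
    {A : ValuationSubring Qb} (hA : A.LiesOverPrime ℓ) {σ : GQ} (hσ : A.IsFrobeniusAt σ ℓ)
    {n : ℕ} (hodd : Odd n) (hℓn : ¬ ℓ ∣ n) (P : Pts W) (hP : n • P = 0) :
    σ • σ • P - W.apOfModel ℓ • σ • P + ℓ • P = 0 := by
  classical
  haveI : Fact ℓ.Prime := ⟨hℓ⟩
  set WA := W.map (Int.castRingHom A) with hWA
  haveI : ((W.map (Int.castRingHom ℚ))⁄Qb).IsElliptic := by
    rw [baseChange_eq_map W A, isElliptic_iff, map_Δ]
    exact (isUnit_delta_place W hℓ hgood hA).map _
  have hΔ : IsUnit WA.Δ := isUnit_delta_place W hℓ hgood hA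
  haveI : (WA.map (algebraMap A Qb)).IsElliptic := ⟨by rw [map_Δ]; exact hΔ.map _⟩
  haveI := charP_residue hℓ hA
  haveI : IsAlgClosed (ResidueField A) := isAlgClosed_residue A
  set V := W.reductionMod ℓ with hV
  have hVeq : WA.map (residue A) = V.map (ZMod.castHom (dvd_refl ℓ) (ResidueField A)) := by
    rw [hWA, hV, reductionMod, WeierstrassCurve.map_map, WeierstrassCurve.map_map]
    congr 1
    exact RingHom.ext_int _ _
  haveI : (V.map (ZMod.castHom (dvd_refl ℓ) (ResidueField A))).IsElliptic := by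
    rw [← hVeq]; exact isElliptic_residue A hΔ
  set π := Degree.frobPt ℓ (map_frobenius_eq (K := ResidueField A) V)
  have hn : IsUnit (n : A) := by
    rw [← Int.cast_natCast]
    exact isUnit_intCast hℓ hA fun h => hℓn (Int.natCast_dvd_natCast.1 h)
  let j : (WA.map (residue A)).toAffine.Point →+
      (V.map (ZMod.castHom (dvd_refl ℓ) (ResidueField A))).toAffine.Point :=
    sigmaPoint (RingHom.id (ResidueField A)) (by rw [WeierstrassCurve.map_id]; exact hVeq)
  have hj0 : ∀ R, j R = 0 → R = 0 := by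
    rintro (_ | ⟨x, y, h⟩) e
    · rfl
    · exact absurd e (Affine.Point.some_ne_zero _)
  let T : AddSubgroup (Pts W) := (nsmulAddMonoidHom n).ker
  have htors : ∀ x : T, n • toPlace W A x.1 = 0 := fun x => by
    rw [← map_nsmul, show n • x.1 = 0 from x.2, _root_.map_zero]
  let φ : T →+ (V.map (ZMod.castHom (dvd_refl ℓ) (ResidueField A))).toAffine.Point :=
    AddMonoidHom.mk' (fun x => j (redPt WA (toPlace W A x.1))) fun x y => by
      rw [← map_add, ← redPt_add hn hodd hΔ (htors x) (htors y), ← map_add]; rfl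
  have hφinj : Function.Injective φ := (injective_iff_map_eq_zero φ).2 fun x hx =>
    Subtype.ext (toPlace_injective W A
      ((redPt_eq_zero hn hΔ (htors x) (hj0 _ hx)).trans (_root_.map_zero (toPlace W A)).symm))
  have hσT : ∀ x : T, σ • x.1 ∈ T := fun x => by
    show n • (σ • x.1) = 0
    rw [smul_comm, show n • x.1 = 0 from x.2]; rfl
  have hφσ : ∀ x : T, φ ⟨σ • x.1, hσT x⟩ = π (φ x) := by
    rintro ⟨Q, hQ⟩
    rcases Q with _ | ⟨x, y, h⟩
    · rfl
    · obtain ⟨h', e⟩ := algEquiv_smul_some (K := Qb) (W.map (Int.castRingHom ℚ)).toAffine σ h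
      obtain ⟨a, b, ha, hb⟩ := exists_coords hn (nonsingular_of_map _
        (by rw [WeierstrassCurve.map_id]; exact baseChange_eq_map W A) h) (htors ⟨_, hQ⟩)
      simp only [RingHom.id_apply] at ha hb
      set τ : A.decompositionSubgroup ℚ := ⟨σ, hσ.mem_decompositionSubgroup⟩
      have hra := hσ.smul_residue_eq (residue A a)
      have hrb := hσ.smul_residue_eq (residue A b)
      rw [← ResidueField.residue_smul] at hra hrb
      have hca : algebraMap A Qb (τ • a) = σ x := by rw [← ha]; rfl
      have hcb : algebraMap A Qb (τ • b) = σ y := by rw [← hb]; rfl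
      have h1 : (WA.map (algebraMap A Qb)).toAffine.Nonsingular (algebraMap A Qb a) (algebraMap A Qb b) := by
        rw [ha, hb]; exact nonsingular_of_map _ (by rw [WeierstrassCurve.map_id]) h
      have h2 : (WA.map (algebraMap A Qb)).toAffine.Nonsingular (algebraMap A Qb (τ • a))
          (algebraMap A Qb (τ • b)) := by
        rw [hca, hcb]; exact nonsingular_of_map _ (by rw [WeierstrassCurve.map_id]) h'
      have e1 : toPlace W A (Affine.Point.some x y h) = Affine.Point.some _ _ h1 :=
        (Affine.Point.some.injEq ..).mpr ⟨ha.symm, hb.symm⟩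
      have e2 : toPlace W A (σ • (Affine.Point.some x y h : Pts W)) = Affine.Point.some _ _ h2 := by
        rw [e]; exact (Affine.Point.some.injEq ..).mpr ⟨hca.symm, hcb.symm⟩
      show j (redPt WA (toPlace W A (σ • (Affine.Point.some x y h : Pts W)))) =
        π (j (redPt WA (toPlace W A (Affine.Point.some x y h))))
      rw [e1, e2, redPt_some WA hΔ, redPt_some WA hΔ]
      exact (Affine.Point.some.injEq ..).mpr ⟨hra, hrb⟩
  have ha : Degree.frobTrace (map_frobenius_eq (K := ResidueField A) V) = W.apOfModel ℓ := by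
    rw [Degree.frobTrace, natCard_frobFixed]; simp [apOfModel, traceOfFrobenius, hV]
  set x : T := ⟨P, hP⟩
  have key := Degree.frob_quadratic (map_frobenius_eq (K := ResidueField A) V) (φ x)
  rw [ha, ← hφσ, ← hφσ ⟨_, hσT x⟩, ← map_zsmul, ← map_zsmul, ← map_sub, ← map_add] at key
  have h0 := congrArg Subtype.val (hφinj (key.trans (_root_.map_zero φ).symm))
  simpa [x, natCast_zsmul] using h0

/-- At a semistable prime `q`, inertia fixes a point of exact order `p ^ j`. -/
theorem exists_inertia_fixed {q : ℕ} (hq : q.Prime) (hΔ0 : W.Δ ≠ 0)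
    (hss : (q : ℤ) ∣ W.Δ → ¬ (q : ℤ) ∣ W.c₄) {p j : ℕ} (hp : p.Prime) (hp2 : p ≠ 2) (hpq : p ≠ q)
    (hj : 0 < j) {A : ValuationSubring Qb} (hA : A.LiesOverPrime q) :
    ∃ P : Pts W, addOrderOf P = p ^ j ∧ ∀ σ ∈ A.inertiaSubgroupIn ℚ, σ • P = P := by
  classical
  haveI hell : ((W.map (Int.castRingHom ℚ))⁄Qb).IsElliptic := by
    rw [baseChange_eq_map W A, isElliptic_iff, map_Δ, map_Δ, eq_intCast, map_intCast,
      isUnit_iff_ne_zero]
    exact_mod_cast hΔ0
  set WA := W.map (Int.castRingHom A) with hWA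
  haveI : (WA.map (algebraMap A Qb)).IsElliptic := by
    rw [← baseChange_eq_map W A]; infer_instance
  have hpu : IsUnit (p : A) := by
    rw [← Int.cast_natCast]
    exact isUnit_intCast hq hA fun h => hpq
      ((Nat.prime_dvd_prime_iff_eq hq hp).1 (Int.natCast_dvd_natCast.1 h)).symm
  have hodd : Odd p := hp.odd_of_ne_two hp2
  have hcard := natCard_torsionBy ((W.map (Int.castRingHom ℚ))⁄Qb)
  by_cases hb : (q : ℤ) ∣ W.Δ
  · have hu : IsUnit WA.c₄ := by
      rw [hWA, map_c₄, eq_intCast]; exact isUnit_intCast hq hA (hss hb)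
    have hd : ¬ IsUnit WA.Δ := by
      rw [hWA, map_Δ, eq_intCast, ← residue_ne_zero_iff_isUnit, not_not,
        intCast_residue_eq_zero_iff hq hA]
      exact hb
    obtain ⟨x, y, h, hord, hfix⟩ := exists_fixed_torsion WA hd hu hp hodd hj hpu (L := Qb)
    have hh : ((W.map (Int.castRingHom ℚ))⁄Qb).toAffine.Nonsingular x y :=
      cast (by rw [baseChange_eq_map W A]) h
    have hι : toPlace W A (Affine.Point.some x y hh) = Affine.Point.some x y h := rfl
    refine ⟨Affine.Point.some x y hh, ?_, fun σ hσ => ?_⟩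
    · rw [← addOrderOf_injective (toPlace W A) (toPlace_injective W A), hι, hord]
    · obtain ⟨h', e⟩ := algEquiv_smul_some (K := Qb) (W.map (Int.castRingHom ℚ)).toAffine σ hh
      have h'' : (WA.map (algebraMap A Qb)).toAffine.Nonsingular (σ x) (σ y) :=
        cast (by rw [← baseChange_eq_map W A]) h'
      have ht : p ^ j • Affine.Point.some (σ x) (σ y) h'' = 0 := by
        have h0 : p ^ j • (σ • (Affine.Point.some x y hh : Pts W)) = 0 := by
          rw [smul_comm, show p ^ j • (Affine.Point.some x y hh : Pts W) = 0 from by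
            rw [← addOrderOf_dvd_iff_nsmul_eq_zero, ← addOrderOf_injective (toPlace W A)
              (toPlace_injective W A), hι, hord]]
          rfl
        have := congrArg (toPlace W A) h0
        rw [map_nsmul, _root_.map_zero, e] at this
        exact this
      obtain ⟨hx, hy⟩ := hfix σ (actsInertially_of_mem hσ) h'' ht
      rw [e]
      exact (Affine.Point.some.injEq ..).mpr ⟨hx, hy⟩
  · have hu : IsUnit WA.Δ := isUnit_delta_place W hq hb hA
    -- a point of exact order `p ^ j`
    obtain ⟨P, hP, hPm⟩ : ∃ P : Pts W, p ^ j • P = 0 ∧ p ^ (j - 1) • P ≠ 0 := by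
      by_contra hcon
      push Not at hcon
      have h1 := hcard (p ^ j) (Nat.one_le_pow _ _ hp.pos)
      have h2 := hcard (p ^ (j - 1)) (Nat.one_le_pow _ _ hp.pos)
      have heq : Submodule.torsionBy ℤ (Pts W) ((p ^ j : ℕ) : ℤ) =
          Submodule.torsionBy ℤ (Pts W) ((p ^ (j - 1) : ℕ) : ℤ) := by
        ext Q
        simp only [mem_torsionBy_iff_nsmul]
        refine ⟨hcon Q, fun h => ?_⟩
        rw [show p ^ j = p * p ^ (j - 1) by rw [← pow_succ']; congr 1; omega, mul_nsmul', h,
          nsmul_zero]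
      rw [heq, h2] at h1
      exact absurd (Nat.pow_left_injective two_ne_zero h1)
        (Nat.pow_lt_pow_right hp.one_lt (by omega)).ne
    haveI := Fact.mk hp
    refine ⟨P, ?_, fun σ hσ => ?_⟩
    · rw [show j = j - 1 + 1 by omega]
      exact addOrderOf_eq_prime_pow hPm (by rwa [show j - 1 + 1 = j by omega])
    rcases P with _ | ⟨x, y, hh⟩
    · rfl
    · obtain ⟨h', e⟩ := algEquiv_smul_some (K := Qb) (W.map (Int.castRingHom ℚ)).toAffine σ hh
      have hn : IsUnit ((p ^ j : ℕ) : A) := by rw [Nat.cast_pow]; exact hpu.pow j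
      have h0 : p ^ j • (σ • (Affine.Point.some x y hh : Pts W)) = 0 := by
        rw [smul_comm, hP]; rfl
      obtain ⟨hx, hy⟩ := inertia_fix_good WA hu (baseChange_eq_map W A).symm
        (actsInertially_of_mem hσ) hn hodd.pow hh h' hP (by rwa [e] at h0)
      rw [e]
      exact (Affine.Point.some.injEq ..).mpr ⟨hx, hy⟩

end Fermat.Agent.ConductorMatch
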