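import Fermat.Agent.ConductorMatch.Approx
import Fermat.Agent.ConductorMatch.TorsionRel
import Fermat.Agent.ConductorMatch.Invol
import Fermat.Prelude.Def_GaloisRep_LocalConditions

/-!
# Comparing a representation with Frobenius traces `a_ℓ(W)` with the torsion of `W`
-/

set_option autoImplicit false

namespace Fermat.Agent.ConductorMatch

open Polynomial WeierstrassCurve WeierstrassCurve.Affine.Point
open Fermat.Agent.Deform
open scoped WeierstrassCurve.Affine

local notation "Qb" => AlgebraicClosure ℚ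
local notation "GQ" => (AlgebraicClosure ℚ) ≃ₐ[ℚ] (AlgebraicClosure ℚ)

variable {A : Type} [CommRing A] [IsLocalRing A] {p : ℕ} [hp : Fact p.Prime]

/-- An integer in the maximal ideal is divisible by the residue characteristic. -/
lemma dvd_of_intCast_mem (hpA : (p : A) ∈ IsLocalRing.maximalIdeal A) {x : ℤ}
    (hx : (x : A) ∈ IsLocalRing.maximalIdeal A) : (p : ℤ) ∣ x := by
  by_contra h
  obtain ⟨u, v, huv⟩ := ((Nat.prime_iff_prime_int.1 hp.out).coprime_iff_not_dvd.2 h)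
  have h1 : ((1 : ℤ) : A) ∈ IsLocalRing.maximalIdeal A := by
    rw [← huv, Int.cast_add, Int.cast_mul, Int.cast_mul, Int.cast_natCast]
    exact add_mem (Ideal.mul_mem_left _ _ hpA) (Ideal.mul_mem_left _ _ hx)
  rw [Int.cast_one] at h1
  exact (IsLocalRing.maximalIdeal.isMaximal A).ne_top ((Ideal.eq_top_iff_one _).2 h1)

omit hp in
lemma intCast_mem_pow (hpA : (p : A) ∈ IsLocalRing.maximalIdeal A) {k : ℕ} {x : ℤ}
    (hx : ((p ^ k : ℕ) : ℤ) ∣ x) : (x : A) ∈ IsLocalRing.maximalIdeal A ^ k := by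
  obtain ⟨c, rfl⟩ := hx
  rw [Int.cast_mul, Int.cast_natCast, Nat.cast_pow]
  exact Ideal.mul_mem_right _ _ (Ideal.pow_mem_pow hpA k)

variable {ρ : GaloisRepAdic A} {r : GQ →* Mat2 A}

/-- Where the cyclotomic character is an integer, it is the determinant. -/
theorem det_eq_intCast [IsHausdorff (IsLocalRing.maximalIdeal A) A]
    (hpA : (p : A) ∈ IsLocalRing.maximalIdeal A) (hr : HasMatrix ρ r) {b : ℕ → ℤ} {bad : Finset ℕ}
    (hpbad : p ∈ bad)
    (hchar : ∀ ℓ : ℕ, ℓ.Prime → ℓ ∉ bad → ∀ P : ValuationSubring Qb, P.LiesOverPrime ℓ →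
      ∀ φ : GQ, P.IsFrobeniusAt φ ℓ →
        LinearMap.charpoly (ρ.ρ φ) = X ^ 2 - C ((b ℓ : A)) * X + C ((ℓ : A)))
    {σ : GQ} {e : ℤ} (he : (GalRep.cyc p σ).val = (e : ℤ_[p])) : (r σ).det = (e : A) := by
  refine IsHausdorff.eq_iff_smodEq (I := IsLocalRing.maximalIdeal A) |>.mpr fun n => ?_
  rw [SModEq.sub_mem, smul_eq_mul, Ideal.mul_top]
  obtain ⟨F, hF, hc⟩ := exists_cyc_approx p n
  obtain ⟨ℓ, hℓ, hbad, P, hP, φ, hφ, β, hag, -, hdet⟩ := exists_approx hr hchar σ F n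
  have h1 := hc σ P φ β hℓ (fun h => hbad (h ▸ hpbad)) hP hφ hag
  rw [he, map_intCast, ← Int.cast_natCast, ZMod.intCast_eq_intCast_iff_dvd_sub] at h1
  have h2 := intCast_mem_pow (A := A) hpA h1
  rw [Int.cast_sub, Int.cast_natCast] at h2
  simpa using add_mem hdet h2

variable (W : WeierstrassCurve ℤ)

/-- The mod `p` representation of `W`. -/
noncomputable abbrev torsRep (p : ℕ) :
    GQ →* Module.End (ZMod p) (Submodule.torsionBy ℤ (Pts W) (p : ℤ)) :=
  galoisRepModuleEnd (K := Qb) ℚ (W.map (Int.castRingHom ℚ)).toAffine p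

lemma isElliptic_pts (hΔ0 : W.Δ ≠ 0) : ((W.map (Int.castRingHom ℚ))⁄Qb).IsElliptic := by
  rw [show ((W.map (Int.castRingHom ℚ))⁄Qb : WeierstrassCurve Qb) = W.map (Int.castRingHom Qb) by
    ext <;> simp [WeierstrassCurve.baseChange], isElliptic_iff, map_Δ, eq_intCast,
    isUnit_iff_ne_zero]
  exact_mod_cast hΔ0

section

variable (hpA : (p : A) ∈ IsLocalRing.maximalIdeal A) (hr : HasMatrix ρ r) {bad : Finset ℕ}
  (hpbad : p ∈ bad) (hp2 : p ≠ 2)
  (hgood : ∀ ℓ : ℕ, ℓ.Prime → ℓ ∉ bad → W.IsGoodPrimeFor ℓ)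
  (hchar : ∀ ℓ : ℕ, ℓ.Prime → ℓ ∉ bad → ∀ P : ValuationSubring Qb, P.LiesOverPrime ℓ →
      ∀ φ : GQ, P.IsFrobeniusAt φ ℓ →
        LinearMap.charpoly (ρ.ρ φ) = X ^ 2 - C ((W.apOfModel ℓ : A)) * X + C ((ℓ : A)))
  (hΔ0 : W.Δ ≠ 0)

include hr hpbad hp2 hgood hchar hΔ0

/-- The residual traces are those of the torsion. -/
theorem residual_trace (ψ : ZMod p →+* IsLocalRing.ResidueField A) (σ : GQ) :
    IsLocalRing.residue A (r σ).trace =
        ψ (LinearMap.trace (ZMod p) _ (torsRep W p σ)) ∧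
      IsLocalRing.residue A (r σ).det = ψ (LinearMap.det (torsRep W p σ)) := by
  classical
  haveI := isElliptic_pts W hΔ0
  obtain ⟨L, hL, hfix⟩ := EC.exists_finite_level (K := Qb) ℚ
    (W.map (Int.castRingHom ℚ)).toAffine p hp.out.one_le
  obtain ⟨ℓ, hℓ, hbad, P, hP, φ, hφ, β, hag, htr, hdet⟩ := exists_approx hr hchar σ L 1
  have hℓp : p ≠ ℓ := fun h => hbad (h ▸ hpbad)
  obtain ⟨ht, hd⟩ := EC.galoisTrace_frobenius W hℓ (hgood ℓ hℓ hbad) hP hφ hp.out hp2 hℓp
  have hσ : torsRep W p σ = torsRep W p φ ^ β := by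
    have e : torsRep W p ((φ ^ β)⁻¹ * σ) = 1 := by
      refine LinearMap.ext fun Q => ?_
      rw [galoisRepModuleEnd_apply, Module.End.one_apply]
      exact hfix _ (fun x hx => by
        rw [AlgEquiv.mul_apply, ← hag x hx]
        exact (φ ^ β).symm_apply_apply x) Q
    rw [← map_pow]
    conv_lhs => rw [← mul_inv_cancel_left (φ ^ β) σ, map_mul, e, mul_one]
  have hrk := EC.finrank_torsionBy (K := Qb) (W.map (Int.castRingHom ℚ)).toAffine p
  haveI : Module.Finite (ZMod p) (Submodule.torsionBy ℤ (Pts W) (p : ℤ)) :=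
    Module.finite_of_finrank_eq_succ hrk
  set bs := Module.finBasisOfFinrankEq (ZMod p) _ hrk
  set M := LinearMap.toMatrix bs bs (torsRep W p φ) with hM
  have htM : M.trace = ((W.apOfModel ℓ : ℤ) : ZMod p) := by
    rw [hM, ← LinearMap.trace_eq_matrix_trace (ZMod p) bs]; exact ht
  have hdM : M.det = (((ℓ : ℤ)) : ZMod p) := by
    rw [hM, LinearMap.det_toMatrix, Int.cast_natCast]; exact hd
  have hMσ : LinearMap.toMatrix bs bs (torsRep W p σ) = M ^ β := by
    rw [hσ]; exact map_pow (LinearMap.toMatrixAlgEquiv bs) _ _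
  constructor
  · rw [LinearMap.trace_eq_matrix_trace (ZMod p) bs, hMσ, luc_trace M htM hdM, map_intCast,
      ← map_intCast (IsLocalRing.residue A), ← sub_eq_zero, ← map_sub,
      IsLocalRing.residue_eq_zero_iff]
    simpa using htr
  · rw [← LinearMap.det_toMatrix bs, hMσ, Matrix.det_pow, hdM, map_pow, map_intCast,
      Int.cast_natCast, ← map_natCast (IsLocalRing.residue A), ← map_pow, ← sub_eq_zero, ← map_sub,
      IsLocalRing.residue_eq_zero_iff]
    simpa using hdet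

include hpA in
/-- At semistable primes `q ≠ p` inertia acts unipotently. -/
theorem unipotent_inertia [IsHausdorff (IsLocalRing.maximalIdeal A) A] {q : ℕ} (hq : q.Prime)
    (hpq : p ≠ q) (hss : (q : ℤ) ∣ W.Δ → ¬ (q : ℤ) ∣ W.c₄) : ρ.IsUnipotentOnInertiaAt q := by
  classical
  haveI := isElliptic_pts W hΔ0
  intro Q hQ σ hσ
  have hcyc : (GalRep.cyc p σ).val = ((1 : ℤ) : ℤ_[p]) := by
    rw [GalRep.cyc_inertia p hq hpq.symm hQ hσ, Units.val_one, Int.cast_one]
  have hdet : (r σ).det = 1 := by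
    rw [det_eq_intCast hpA hr hpbad hchar hcyc, Int.cast_one]
  have htr : (r σ).trace = 2 := by
    refine IsHausdorff.eq_iff_smodEq (I := IsLocalRing.maximalIdeal A) |>.mpr fun n => ?_
    rw [SModEq.sub_mem, smul_eq_mul, Ideal.mul_top]
    rcases Nat.eq_zero_or_pos n with rfl | hn
    · simp
    obtain ⟨L, hL, hfix⟩ := EC.exists_finite_level (K := Qb) ℚ
      (W.map (Int.castRingHom ℚ)).toAffine (p ^ n) (Nat.one_le_pow _ _ hp.out.pos)
    obtain ⟨F, hF, hc⟩ := exists_cyc_approx p n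
    obtain ⟨P₀, hP₀, hfixσ⟩ :=
      exists_inertia_fixed W hq hΔ0 hss hp.out hp2 hpq hn hQ
    obtain ⟨ℓ, hℓ, hbad, P, hP, φ, hφ, β, hag, htr, -⟩ := exists_approx hr hchar σ (L ⊔ F) n
    have hℓp : ℓ ≠ p := fun h => hbad (h ▸ hpbad)
    have h0 : p ^ n • P₀ = 0 := addOrderOf_dvd_iff_nsmul_eq_zero.1 hP₀.dvd
    have hfixφ : (φ ^ β) • P₀ = P₀ := by
      have e := congrArg Subtype.val (hfix ((φ ^ β)⁻¹ * σ) (fun x hx => by
        rw [AlgEquiv.mul_apply, ← hag x ((le_sup_left : L ≤ L ⊔ F) hx)]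
        exact (φ ^ β).symm_apply_apply x)
        ⟨P₀, (EC.mem_torsionBy_iff_nsmul (W := (W.map (Int.castRingHom ℚ))⁄Qb)).2 h0⟩)
      change ((φ ^ β)⁻¹ * σ) • P₀ = P₀ at e
      rw [mul_smul, hfixσ σ hσ, inv_smul_eq_iff] at e
      exact e.symm
    have hrel := frobenius_quadratic_nsmul W hℓ (hgood ℓ hℓ hbad) hP hφ
      ((hp.out.odd_of_ne_two hp2).pow (n := n))
      (fun h => hℓp ((Nat.prime_dvd_prime_iff_eq hℓ hp.out).1 (hℓ.dvd_of_dvd_pow h))) P₀ h0
    set t := luc (W.apOfModel ℓ) ℓ β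
    let e : Module.End ℤ (Pts W) :=
      (DistribSMul.toAddMonoidHom (Pts W) φ).toIntLinearMap
    have he : ∀ (k : ℕ) (R : Pts W), (e ^ k) R = (φ ^ k) • R := by
      intro k
      induction k with
      | zero => intro R; simp
      | succ k ih =>
        intro R
        rw [pow_succ, Module.End.mul_apply, ih, pow_succ, mul_smul]
        rfl
    obtain ⟨c, hc'⟩ := luc_dvd (W.apOfModel ℓ) ℓ β
    have hq0 : Polynomial.aeval e (X ^ 2 - C (W.apOfModel ℓ) * X + C (ℓ : ℤ)) P₀ = 0 := by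
      simp only [map_add, map_sub, map_mul, aeval_C, aeval_X, LinearMap.add_apply,
        LinearMap.sub_apply, Module.End.mul_apply, Module.algebraMap_end_apply, pow_two,
        natCast_zsmul]
      exact hrel
    have hβ := congrArg (fun f => Polynomial.aeval e f P₀) hc'
    simp only [mul_comm (X ^ 2 - C (W.apOfModel ℓ) * X + C (ℓ : ℤ)) c] at hβ
    rw [map_mul, Module.End.mul_apply, hq0, _root_.map_zero] at hβ
    have hX : ∀ R : Pts W, Polynomial.aeval e ((X : ℤ[X]) ^ β) R = (φ ^ β) • R := fun R => by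
      rw [map_pow, aeval_X]; exact he β R
    simp only [map_add, map_sub, map_mul, aeval_C, LinearMap.add_apply,
      LinearMap.sub_apply, Module.End.mul_apply, Module.algebraMap_end_apply, two_mul, pow_add,
      hX, hfixφ] at hβ

    have hord : ((p ^ n : ℕ) : ℤ) ∣ 1 - t + (ℓ : ℤ) ^ β := by
      rw [← hP₀, addOrderOf_dvd_iff_zsmul_eq_zero, add_zsmul, sub_zsmul, one_zsmul]
      simpa [sub_eq_add_neg] using hβ
    have h1 := hc σ P φ β hℓ hℓp hP hφ fun x hx => hag x ((le_sup_right : F ≤ L ⊔ F) hx)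
    rw [hcyc, map_intCast, ← Int.cast_natCast (R := ZMod (p ^ n)) (ℓ ^ β),
      ZMod.intCast_eq_intCast_iff_dvd_sub, Nat.cast_pow ℓ] at h1
    have h2 : ((p ^ n : ℕ) : ℤ) ∣ t - 2 := by
      have := dvd_sub h1 hord
      rwa [show (ℓ : ℤ) ^ β - 1 - (1 - t + (ℓ : ℤ) ^ β) = t - 2 by ring] at this
    have h3 := intCast_mem_pow (A := A) hpA h2
    simpa using add_mem htr h3
  obtain ⟨bs, hbs⟩ := hr
  rw [← LinearMap.charpoly_toMatrix (ρ.ρ σ) bs, hbs, Matrix.charpoly_fin_two, htr, hdet]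
  simp only [map_ofNat, map_one]
  ring

end

end Fermat.Agent.ConductorMatch
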