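import Fermat.Agent.ConductorMatch.Compare
import Fermat.Agent.Deform.AbsIrred
import Fermat.Prelude.Def_FLTPrelim_ModularRep

/-!
# The residual representation is absolutely irreducible and odd
-/

set_option autoImplicit false

namespace Fermat.Agent.ConductorMatch

open Polynomial WeierstrassCurve WeierstrassCurve.Affine.Point
open Fermat.Agent.Deform
open scoped WeierstrassCurve.Affine Matrix

local notation "Qb" => AlgebraicClosure ℚ
local notation "GQ" => (AlgebraicClosure ℚ) ≃ₐ[ℚ] (AlgebraicClosure ℚ)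

/-- An involution of determinant `-1` of a plane has eigenvectors for `1` and `-1`. -/
lemma exists_eigenbasis {F V : Type*} [Field F] [AddCommGroup V] [Module F V]
    (h2 : (2 : F) ≠ 0) (hrk : Module.finrank F V = 2) (f : Module.End F V) (hf : f * f = 1)
    (hdet : LinearMap.det f = -1) :
    ∃ b : Module.Basis (Fin 2) F V, f (b 0) = b 0 ∧ f (b 1) = -b 1 := by
  haveI : Module.Finite F V := Module.finite_of_finrank_eq_succ hrk
  have hff : ∀ v, f (f v) = v := fun v => by rw [← Module.End.mul_apply, hf, Module.End.one_apply]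
  have hne : ∀ c : F, c ^ 2 = 1 → f ≠ c • 1 := by
    intro c hc e
    rw [e, LinearMap.det_smul, hrk, hc, map_one, mul_one] at hdet
    exact h2 (by linear_combination hdet)
  obtain ⟨v, hv⟩ : ∃ v, v + f v ≠ 0 := by
    by_contra h
    push Not at h
    refine hne (-1) (by norm_num) (LinearMap.ext fun v => ?_)
    rw [LinearMap.smul_apply, Module.End.one_apply, neg_smul, one_smul]
    exact eq_neg_of_add_eq_zero_right (h v)
  obtain ⟨w, hw⟩ : ∃ w, w - f w ≠ 0 := by
    by_contra h
    push Not at h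
    refine hne 1 (one_pow 2) (LinearMap.ext fun v => ?_)
    rw [LinearMap.smul_apply, Module.End.one_apply, one_smul]
    exact (sub_eq_zero.1 (h v)).symm
  have e0 : f (v + f v) = v + f v := by rw [map_add, hff, add_comm]
  have e1 : f (w - f w) = -(w - f w) := by rw [map_sub, hff, neg_sub]
  have hli : LinearIndependent F ![v + f v, w - f w] := by
    rw [LinearIndependent.pair_iff]
    intro s t hst
    have h' := congrArg f hst
    rw [map_add, map_smul, map_smul, e0, e1, _root_.map_zero] at h'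
    have hs : (2 * s) • (v + f v) = 0 := by
      calc (2 * s) • (v + f v) = (s • (v + f v) + t • (w - f w))
            + (s • (v + f v) + t • -(w - f w)) := by module
        _ = 0 := by rw [hst, h', add_zero]
    have hs0 : s = 0 := (mul_eq_zero.1 ((smul_eq_zero.1 hs).resolve_right hv)).resolve_left h2
    refine ⟨hs0, ?_⟩
    rw [hs0, zero_smul, zero_add] at hst
    exact (smul_eq_zero.1 hst).resolve_right hw
  let b := basisOfLinearIndependentOfCardEqFinrank hli (by rw [Fintype.card_fin, hrk])
  exact ⟨b, by simpa [b] using e0, by simpa [b] using e1⟩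

variable {A : Type} [CommRing A] [IsLocalRing A] {p : ℕ} [hp : Fact p.Prime]
variable {ρ : GaloisRepAdic A} (W : WeierstrassCurve ℤ)

/-- The residual representation is absolutely irreducible and odd. -/
theorem residual_absIrred_odd [IsHausdorff (IsLocalRing.maximalIdeal A) A]
    (hpA : (p : A) ∈ IsLocalRing.maximalIdeal A) {bad : Finset ℕ} (hpbad : p ∈ bad) (hp2 : p ≠ 2)
    (hgood : ∀ ℓ : ℕ, ℓ.Prime → ℓ ∉ bad → W.IsGoodPrimeFor ℓ)
    (hchar : ∀ ℓ : ℕ, ℓ.Prime → ℓ ∉ bad → ∀ P : ValuationSubring Qb, P.LiesOverPrime ℓ →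
      ∀ φ : GQ, P.IsFrobeniusAt φ ℓ →
        LinearMap.charpoly (ρ.ρ φ) = X ^ 2 - C ((W.apOfModel ℓ : A)) * X + C ((ℓ : A)))
    (hΔ0 : W.Δ ≠ 0) (hirr : W.ModRepIsIrreducible p) :
    ρ.residual.IsAbsolutelyIrreducible ∧ ρ.residual.IsOdd := by
  classical
  haveI := isElliptic_pts W hΔ0
  obtain ⟨r, hr⟩ := exists_hasMatrix ρ
  have hdetc : ∀ c : GQ, c * c = 1 → c ≠ 1 → (r c).det = -1 := fun c hc hc1 => by
    have h : (GalRep.cyc p c).val = ((-1 : ℤ) : ℤ_[p]) := by
      rw [cyc_invol hc hc1 p hp2]; simp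
    rw [det_eq_intCast hpA hr hpbad hchar h]; simp
  have hres := hr.residual
  have hcharP : CharP (IsLocalRing.ResidueField A) p := by
    refine (CharP.charP_iff_prime_eq_zero hp.out).2 ?_
    rw [← map_natCast (IsLocalRing.residue A), IsLocalRing.residue_eq_zero_iff]
    exact hpA
  set ψ := ZMod.castHom (dvd_refl p) (IsLocalRing.ResidueField A)
  refine ⟨?_, fun c hc hc1 => ?_⟩
  swap
  · obtain ⟨b, hb⟩ := hres
    rw [← LinearMap.det_toMatrix b, hb]
    show ((r c).map (IsLocalRing.residue A)).det = -1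
    rw [← RingHom.mapMatrix_apply, ← RingHom.map_det, hdetc c hc hc1, map_neg, map_one]
  -- an involution
  obtain ⟨i, hi⟩ := IsAlgClosed.exists_pow_nat_eq (-1 : Qb) (by norm_num : 0 < 2)
  obtain ⟨c, hc, hc1⟩ : ∃ c : GQ, c * c = 1 ∧ c ≠ 1 := by
    obtain ⟨e⟩ : Nonempty (Qb →ₐ[ℚ] ℂ) := ⟨IsAlgClosed.lift⟩
    let cc : ℂ →ₐ[ℚ] ℂ := (Complex.conjAe.restrictScalars ℚ).toAlgHom
    haveI : Normal ℚ Qb := IsGalois.to_normal
    letI : Algebra Qb ℂ := e.toRingHom.toAlgebra
    haveI : IsScalarTower ℚ Qb ℂ := IsScalarTower.of_algebraMap_eq fun x => (e.commutes x).symm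
    let c := AlgHom.restrictNormal' cc Qb
    have hce : ∀ x, e (c x) = starRingEnd ℂ (e x) := fun x =>
      AlgHom.restrictNormal_commutes cc Qb x
    refine ⟨c, ?_, fun h => ?_⟩
    · ext x
      refine e.injective ?_
      show e ((c * c : GQ) x) = e ((1 : GQ) x)
      rw [AlgEquiv.mul_apply, hce, hce, Complex.conj_conj, AlgEquiv.one_apply]
    · have h1 := hce i
      rw [h, AlgEquiv.one_apply, eq_comm, Complex.conj_eq_iff_im] at h1
      have h2 : e i ^ 2 = -1 := by rw [← map_pow, hi, map_neg, map_one]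
      have h3 := congrArg Complex.re h2
      simp [pow_two, h1] at h3
      nlinarith [mul_self_nonneg (e i).re]
  obtain ⟨hψt, hψd⟩ : (∀ σ, IsLocalRing.residue A (r σ).trace =
      ψ (LinearMap.trace (ZMod p) _ (torsRep W p σ))) ∧
      (∀ σ, IsLocalRing.residue A (r σ).det = ψ (LinearMap.det (torsRep W p σ))) :=
    ⟨fun σ => (residual_trace W hr hpbad hp2 hgood hchar hΔ0 ψ σ).1,
      fun σ => (residual_trace W hr hpbad hp2 hgood hchar hΔ0 ψ σ).2⟩
  have hrk := EC.finrank_torsionBy (K := Qb) (W.map (Int.castRingHom ℚ)).toAffine p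
  haveI : NeZero (p : ℕ) := ⟨hp.out.ne_zero⟩
  have h2p : (2 : ZMod p) ≠ 0 := by
    intro e
    have := (ZMod.natCast_eq_zero_iff 2 p).1 (by exact_mod_cast e)
    exact hp2 ((Nat.prime_dvd_prime_iff_eq hp.out Nat.prime_two).1 this)
  have hdE : LinearMap.det (torsRep W p c) = -1 := ψ.injective (by
    rw [← hψd c, hdetc c hc hc1, map_neg, map_one, map_neg, map_one])
  obtain ⟨be, hb0, hb1⟩ := exists_eigenbasis h2p hrk (torsRep W p c)
    (by rw [← map_mul, hc, map_one]) hdE
  set rE : GQ →* Matrix (Fin 2) (Fin 2) (ZMod p) :=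
    (LinearMap.toMatrixAlgEquiv be).toMonoidHom.comp (torsRep W p) with hrE
  have hrEc : rE c = !![1, 0; 0, -1] := by
    ext i j
    show LinearMap.toMatrixAlgEquiv be (torsRep W p c) i j = _
    rw [LinearMap.toMatrixAlgEquiv_apply]
    fin_cases i <;> fin_cases j <;> simp [hb0, hb1]
  have hline : ∀ i j : Fin 2, i ≠ j → ∃ g, rE g i j ≠ 0 := by
    intro i j hij
    by_contra h
    push Not at h
    rcases hirr.2 (ZMod p ∙ be j) (fun σ x hx => by
      obtain ⟨a, rfl⟩ := Submodule.mem_span_singleton.1 hx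
      rw [smul_comm]
      refine Submodule.smul_mem _ _ (Submodule.mem_span_singleton.2 ⟨rE σ j j, ?_⟩)
      conv_rhs => rw [← galoisRepModuleEnd_apply, ← be.sum_repr (galoisRepModuleEnd (K := Qb) ℚ
        (W.map (Int.castRingHom ℚ)).toAffine p σ (be j))]
      have hz : rE σ i j = 0 := h σ
      change LinearMap.toMatrixAlgEquiv be (torsRep W p σ) i j = 0 at hz
      show LinearMap.toMatrixAlgEquiv be (torsRep W p σ) j j • be j = _
      rw [LinearMap.toMatrixAlgEquiv_apply] at hz ⊢
      rw [Fin.sum_univ_two]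
      fin_cases i <;> fin_cases j <;> first | exact absurd rfl hij | simp_all) with hbot | htop
    · exact be.ne_zero j (Submodule.span_singleton_eq_bot.1 hbot)
    · have : be i ∈ (ZMod p ∙ be j) := htop ▸ Submodule.mem_top
      obtain ⟨a, ha⟩ := Submodule.mem_span_singleton.1 this
      have h' := congrArg (fun v => be.repr v i) ha
      simp [be.repr_self, hij] at h'
  -- trace nondegeneracy
  have hnd : ∀ T : Matrix (Fin 2) (Fin 2) (ZMod p), (∀ g, (T * rE g).trace = 0) → T = 0 := by
    intro T hT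
    have key : ∀ g, T 0 0 * rE g 0 0 + T 1 0 * rE g 0 1 + (T 0 1 * rE g 1 0 + T 1 1 * rE g 1 1) = 0 ∧
        T 0 0 * rE g 0 0 + T 1 0 * rE g 0 1 - (T 0 1 * rE g 1 0 + T 1 1 * rE g 1 1) = 0 ∧
        T 0 0 * rE g 0 0 - T 1 0 * rE g 0 1 + (T 0 1 * rE g 1 0 - T 1 1 * rE g 1 1) = 0 ∧
        T 0 0 * rE g 0 0 - T 1 0 * rE g 0 1 - (T 0 1 * rE g 1 0 - T 1 1 * rE g 1 1) = 0 := by
      intro g
      have a := hT g
      have b := hT (c * g)
      have d := hT (g * c)
      have e := hT (c * g * c)
      rw [map_mul] at b d e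
      rw [map_mul] at e
      rw [hrEc] at b d e
      rw [Matrix.eta_fin_two (rE g), Matrix.eta_fin_two T] at a b d e
      simp only [Matrix.mul_fin_two, Matrix.trace_fin_two_of, mul_one, mul_zero, one_mul, zero_mul,
        mul_neg, neg_mul, add_zero, zero_add] at a b d e
      refine ⟨?_, ?_, ?_, ?_⟩
      · linear_combination a
      · linear_combination b
      · linear_combination d
      · linear_combination e
    have h4 : (4 : ZMod p) ≠ 0 := by
      rw [show (4 : ZMod p) = 2 * 2 by norm_num]; exact mul_ne_zero h2p h2p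
    have res : ∀ g, T 0 0 * rE g 0 0 = 0 ∧ T 1 0 * rE g 0 1 = 0 ∧ T 0 1 * rE g 1 0 = 0 ∧
        T 1 1 * rE g 1 1 = 0 := by
      intro g
      obtain ⟨a, b, d, e⟩ := key g
      refine ⟨?_, ?_, ?_, ?_⟩ <;> refine (mul_eq_zero.1 ?_).resolve_left h4
      · linear_combination a + b + d + e
      · linear_combination a + b - d - e
      · linear_combination a - b + d - e
      · linear_combination a - b - d + e
    obtain ⟨g₁, hg₁⟩ := hline 0 1 (by decide)
    obtain ⟨g₂, hg₂⟩ := hline 1 0 (by decide)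
    obtain ⟨t00, -, -, t11⟩ := res 1
    rw [map_one] at t00 t11
    ext i j
    fin_cases i <;> fin_cases j
    · simpa using t00
    · exact (mul_eq_zero.1 (res g₂).2.2.1).resolve_right hg₂
    · exact (mul_eq_zero.1 (res g₁).2.1).resolve_right hg₁
    · simpa using t11
  -- conclusion
  intro U hU
  by_contra hcon
  push Not at hcon
  set K := AlgebraicClosure (IsLocalRing.ResidueField A)
  have hU1 : Module.finrank K U = 1 := by
    have hlt : Module.finrank K U < Module.finrank K (ρ.residual.baseChange K).V :=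
      Submodule.finrank_lt (lt_top_iff_ne_top.2 hcon.2).ne
    rw [(ρ.residual.baseChange K).finrank_eq] at hlt
    have : Module.finrank K U ≠ 0 := fun h => hcon.1 (Submodule.finrank_eq_zero.1 h)
    omega
  obtain ⟨bU, hbU⟩ := hres.baseChange (k' := K)
  obtain ⟨u, hu, huspan⟩ : ∃ u ∈ U, u ≠ 0 := Submodule.exists_mem_ne_zero_of_ne_bot hcon.1
  let ν : (GQ) → K := fun σ => Classical.choose
    ((finrank_eq_one_iff_of_nonzero' (⟨u, hu⟩ : U) (by simpa using huspan)).1 hU1
      ⟨_, hU σ u hu⟩)
  have hν : ∀ σ, (ρ.residual.baseChange K).ρ σ u = ν σ • u := fun σ => by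
    have := congrArg Subtype.val (Classical.choose_spec
      ((finrank_eq_one_iff_of_nonzero' (⟨u, hu⟩ : U) (by simpa using huspan)).1 hU1
        ⟨_, hU σ u hu⟩))
    exact this.symm
  set φK := algebraMap (IsLocalRing.ResidueField A) K with hφK
  have hνmul : ∀ g h, ν (g * h) = ν g * ν h := fun g h => by
    refine smul_left_injective K huspan ?_
    show ν (g * h) • u = (ν g * ν h) • u
    rw [← hν, map_mul, Module.End.mul_apply, hν, map_smul, hν, smul_smul, mul_comm]
  -- `ν` is a root of the characteristic polynomial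
  have hroot : ∀ g, ν g ^ 2 - φK (IsLocalRing.residue A (r g).trace) * ν g
      + φK (IsLocalRing.residue A (r g).det) = 0 := by
    intro g
    have hch := LinearMap.aeval_self_charpoly ((ρ.residual.baseChange K).ρ g)
    rw [← LinearMap.charpoly_toMatrix _ bU, hbU, Matrix.charpoly_fin_two] at hch
    have h := LinearMap.congr_fun hch u
    simp only [map_add, map_sub, map_mul, map_pow, aeval_C, aeval_X, LinearMap.add_apply,
      LinearMap.sub_apply, Module.End.mul_apply, Module.algebraMap_end_apply, pow_two, hν,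
      map_smul, LinearMap.zero_apply, smul_smul, ← sub_smul, ← add_smul] at h
    have h' := (smul_eq_zero.1 h).resolve_right huspan
    have et : ((mapHom φK).comp ((mapHom (IsLocalRing.residue A)).comp r) g).trace =
        φK (IsLocalRing.residue A (r g).trace) := by
      simp [mapHom, Matrix.trace_fin_two]
    have ed : ((mapHom φK).comp ((mapHom (IsLocalRing.residue A)).comp r) g).det =
        φK (IsLocalRing.residue A (r g).det) := by
      simp [mapHom, Matrix.det_fin_two]
    rw [et, ed] at h'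
    linear_combination h'
  set Φ : ZMod p →+* K := φK.comp ψ
  have htr : ∀ g, Φ (rE g).trace = ν g + Φ (rE g).det / ν g ∧ ν g ≠ 0 := by
    intro g
    have h := hroot g
    rw [hψt g, hψd g] at h
    have et : LinearMap.trace (ZMod p) _ (torsRep W p g) = (rE g).trace := by
      rw [LinearMap.trace_eq_matrix_trace (ZMod p) be]; rfl
    have ed : LinearMap.det (torsRep W p g) = (rE g).det := by
      rw [← LinearMap.det_toMatrix be]; rfl
    rw [et, ed] at h
    have hd0 : (rE g).det ≠ 0 := by
      have : IsUnit (rE g).det := (Matrix.isUnit_iff_isUnit_det _).1 ⟨⟨rE g, rE g⁻¹,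
        by rw [← map_mul, mul_inv_cancel, map_one], by rw [← map_mul, inv_mul_cancel, map_one]⟩, rfl⟩
      exact this.ne_zero
    have hν0 : ν g ≠ 0 := fun e => by
      rw [e] at h
      simp only [ne_eq, OfNat.ofNat_ne_zero, not_false_eq_true, zero_pow, mul_zero, sub_zero,
        zero_add, map_eq_zero] at h
      exact hd0 h
    refine ⟨?_, hν0⟩
    simp only [Φ, RingHom.coe_comp, Function.comp_apply]
    rw [← sub_eq_iff_eq_add', eq_div_iff hν0]
    linear_combination -h
  have hmul : ∀ x g h, Φ (rE (g * h * x)).trace = Φ (rE (h * g * x)).trace := by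
    intro x g h
    rw [(htr _).1, (htr _).1, map_mul rE, map_mul rE, map_mul rE, map_mul rE, Matrix.det_mul,
      Matrix.det_mul, Matrix.det_mul, Matrix.det_mul, hνmul, hνmul, hνmul, hνmul,
      mul_comm (ν g) (ν h), mul_comm (rE g).det (rE h).det]
  obtain ⟨g, hg⟩ := hline 0 1 (by decide)
  have hcomm : rE (g * c) - rE (c * g) = 0 := hnd _ fun x => Φ.injective (by
    rw [Matrix.sub_mul, Matrix.trace_sub, map_sub, _root_.map_zero, ← map_mul, ← map_mul, hmul, sub_self])
  have := congrFun (congrFun hcomm 0) 1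
  rw [map_mul, map_mul, hrEc] at this
  rw [Matrix.eta_fin_two (rE g), Matrix.mul_fin_two, Matrix.mul_fin_two] at this
  simp at this
  exact hg ((mul_eq_zero.1 (show (2 : ZMod p) * rE g 0 1 = 0 by linear_combination -this)).resolve_left h2p)

end Fermat.Agent.ConductorMatch
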