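import Fermat.Agent.ConductorMatch.Irred
import Fermat.Agent.ConductorMatch.Rational
import Fermat.Agent.Galois.Places
import Fermat.Prelude.Def_CuspForm_Newforms
import Fermat.Prelude.Def_CuspForm_HeckeAlgebra
import Fermat.Prelude.Def_WeierstrassCurve_ConductorLevel

/-!
# Conductor-level matching, given the local behaviour of the representations of newforms
-/

set_option autoImplicit false

namespace Fermat.Agent.ConductorMatch

open Polynomial CongruenceSubgroup ModularFormClass WeierstrassCurve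
open Fermat.Agent.Deform Fermat.Agent.Newform
open CuspForm CuspForm.IsNewform

/-- The local behaviour at primes exactly dividing the level. -/
def MultiplicativeLocal : Prop :=
  ∀ {M : ℕ} [NeZero M] {g : CuspForm (CongruenceSubgroup.Gamma0 M) 2} (hg : g.IsNewform)
    (lam : ℕ) [Fact lam.Prime]
    (S : Finset ℕ)
    (O' : Type) [CommRing O'] [IsDomain O'] [IsDiscreteValuationRing O']
    [IsAdicComplete (IsLocalRing.maximalIdeal O') O'] [Finite (IsLocalRing.ResidueField O')]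
    [CharZero O'] (hlamO' : (lam : O') ∈ IsLocalRing.maximalIdeal O')
    (chig : CuspForm.heckeAlgebra M 2 (↑S : Set ℕ) →+* ℂ)
    (hchig : ∀ (ℓ : ℕ) (hℓ : ℓ.Prime) (hℓM : ¬ ℓ ∣ M) (hℓS : ℓ ∉ (↑S : Set ℕ)),
      chig (CuspForm.heckeAlgebra.T hℓ hℓM hℓS) = ModularFormClass.qCoeff g ℓ)
    (iota : chig.range →+* O')
    (hlamS : lam ∈ S) (hMS : ∀ q : ℕ, q.Prime → q ∣ M → q ∈ S),
    ∃ (O'' : Type) (_ : CommRing O'') (_ : IsDomain O'') (_ : IsDiscreteValuationRing O'')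
      (_ : IsAdicComplete (IsLocalRing.maximalIdeal O'') O'') (_ : Finite (IsLocalRing.ResidueField O''))
      (_ : CharZero O'') (_ : Algebra O' O'') (_ : Module.Finite O' O'') (_ : IsLocalHom (algebraMap O' O'')),
      Function.Injective (algebraMap O' O'') ∧
      ∃ ρ : GaloisRepAdic O'',
        (∀ (ℓ : ℕ) (hℓ : ℓ.Prime) (hℓM : ¬ ℓ ∣ M) (hℓS : ℓ ∉ (↑S : Set ℕ)),
          ∀ A : ValuationSubring (AlgebraicClosure ℚ), A.LiesOverPrime ℓ →
            ∀ σ : AlgebraicClosure ℚ ≃ₐ[ℚ] AlgebraicClosure ℚ, A.IsFrobeniusAt σ ℓ →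
              LinearMap.charpoly (ρ.ρ σ) =
                X ^ 2 - C (algebraMap O' O'' ((iota.comp chig.rangeRestrict) (CuspForm.heckeAlgebra.T hℓ hℓM hℓS))) * X
                  + C ((ℓ : O''))) ∧
        (∀ q : ℕ, q.Prime → q ≠ lam → q ∣ M → ¬ q ^ 2 ∣ M →
          ∀ A : ValuationSubring (AlgebraicClosure ℚ), A.LiesOverPrime q →
            ∀ σ : AlgebraicClosure ℚ ≃ₐ[ℚ] AlgebraicClosure ℚ, A.IsFrobeniusAt σ q →
              LinearMap.charpoly (ρ.ρ σ) = X ^ 2 - C ((q : O'') + 1) * X + C ((q : O'')) ∨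
              LinearMap.charpoly (ρ.ρ σ) = X ^ 2 + C ((q : O'') + 1) * X + C ((q : O'')))

/-- The local behaviour at primes whose square exactly divides the level. -/
def CarayolLocal : Prop :=
  ∀ {M : ℕ} [NeZero M] {g : CuspForm (CongruenceSubgroup.Gamma0 M) 2} (hg : g.IsNewform)
    (lam : ℕ) [Fact lam.Prime]
    (S : Finset ℕ)
    (O' : Type) [CommRing O'] [IsDomain O'] [IsDiscreteValuationRing O']
    [IsAdicComplete (IsLocalRing.maximalIdeal O') O'] [Finite (IsLocalRing.ResidueField O')]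
    [CharZero O'] (hlamO' : (lam : O') ∈ IsLocalRing.maximalIdeal O')
    (hlam2 : lam ≠ 2)
    (chig : CuspForm.heckeAlgebra M 2 (↑S : Set ℕ) →+* ℂ)
    (hchig : ∀ (ℓ : ℕ) (hℓ : ℓ.Prime) (hℓM : ¬ ℓ ∣ M) (hℓS : ℓ ∉ (↑S : Set ℕ)),
      chig (CuspForm.heckeAlgebra.T hℓ hℓM hℓS) = ModularFormClass.qCoeff g ℓ)
    (iota : chig.range →+* O')
    (hlamS : lam ∈ S) (hMS : ∀ q : ℕ, q.Prime → q ∣ M → q ∈ S)
    (hres : ∀ (O'' : Type) [CommRing O''] [IsDomain O''] [IsDiscreteValuationRing O'']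
      [IsAdicComplete (IsLocalRing.maximalIdeal O'') O''] [Finite (IsLocalRing.ResidueField O'')] [CharZero O'']
      [Algebra O' O''] [Module.Finite O' O''] [IsLocalHom (algebraMap O' O'')],
      Function.Injective (algebraMap O' O'') → ∀ (ρ : GaloisRepAdic O''),
      (∀ (ℓ : ℕ) (hℓ : ℓ.Prime) (hℓlam : ℓ ≠ lam) (hℓM : ¬ ℓ ∣ M) (hℓS : ℓ ∉ (↑S : Set ℕ)),
        ∀ A : ValuationSubring (AlgebraicClosure ℚ), A.LiesOverPrime ℓ →
          ∀ σ : AlgebraicClosure ℚ ≃ₐ[ℚ] AlgebraicClosure ℚ, A.IsFrobeniusAt σ ℓ →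
            LinearMap.charpoly (ρ.ρ σ) =
              X ^ 2 - C (algebraMap O' O'' ((iota.comp chig.rangeRestrict) (CuspForm.heckeAlgebra.T hℓ hℓM hℓS))) * X
                + C ((ℓ : O'')))
      → ρ.residual.IsAbsolutelyIrreducible ∧ ρ.residual.IsOdd),
    ∃ (O'' : Type) (_ : CommRing O'') (_ : IsDomain O'') (_ : IsDiscreteValuationRing O'')
      (_ : IsAdicComplete (IsLocalRing.maximalIdeal O'') O'') (_ : Finite (IsLocalRing.ResidueField O''))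
      (_ : CharZero O'') (_ : Algebra O' O'') (_ : Module.Finite O' O'') (_ : IsLocalHom (algebraMap O' O'')),
      Function.Injective (algebraMap O' O'') ∧
      ∃ ρ : GaloisRepAdic O'',
        (∀ (ℓ : ℕ) (hℓ : ℓ.Prime) (hℓM : ¬ ℓ ∣ M) (hℓS : ℓ ∉ (↑S : Set ℕ)),
          ∀ A : ValuationSubring (AlgebraicClosure ℚ), A.LiesOverPrime ℓ →
            ∀ σ : AlgebraicClosure ℚ ≃ₐ[ℚ] AlgebraicClosure ℚ, A.IsFrobeniusAt σ ℓ →
              LinearMap.charpoly (ρ.ρ σ) =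
                X ^ 2 - C (algebraMap O' O'' ((iota.comp chig.rangeRestrict) (CuspForm.heckeAlgebra.T hℓ hℓM hℓS))) * X
                  + C ((ℓ : O''))) ∧
        (∀ q : ℕ, q.Prime → q ≠ lam → M.factorization q = 2 → ¬ ρ.IsUnipotentOnInertiaAt q)

local notation "Qb" => AlgebraicClosure ℚ
local notation "GQ" => (AlgebraicClosure ℚ) ≃ₐ[ℚ] (AlgebraicClosure ℚ)

/-- The residue field of `ℤ_[p]` is finite. -/
theorem finite_residueField_padicInt (p : ℕ) [Fact p.Prime] :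
    Finite (IsLocalRing.ResidueField ℤ_[p]) :=
  Finite.of_equiv _ (PadicInt.residueField (p := p)).symm.toEquiv

variable {M : ℕ} [NeZero M] {g : CuspForm (Gamma0 M) 2}

/-- The integral character of an eigenform with integral good coefficients. -/
theorem exists_intCharacter (hg : g.IsNormalizedEigenform) {b : ℕ → ℤ}
    (hb : ∀ ℓ : ℕ, ℓ.Prime → ¬ ℓ ∣ M → (b ℓ : ℂ) = qCoeff ⇑g ℓ) (S : Finset ℕ)
    (hS : ∀ q : ℕ, q.Prime → q ∣ M → q ∈ S) (O : Type) [CommRing O] :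
    ∃ (chig : CuspForm.heckeAlgebra M 2 (↑S : Set ℕ) →+* ℂ) (iota : chig.range →+* O),
      (∀ (ℓ : ℕ) (hℓ : ℓ.Prime) (hℓM : ¬ ℓ ∣ M) (hℓS : ℓ ∉ (↑S : Set ℕ)),
        chig (CuspForm.heckeAlgebra.T hℓ hℓM hℓS) = qCoeff ⇑g ℓ) ∧
      ∀ (ℓ : ℕ) (hℓ : ℓ.Prime) (hℓM : ¬ ℓ ∣ M) (hℓS : ℓ ∉ (↑S : Set ℕ)),
        (iota.comp chig.rangeRestrict) (CuspForm.heckeAlgebra.T hℓ hℓM hℓS) = (b ℓ : O) := by
  obtain ⟨χ, -, hχ, -⟩ := exists_character_of_eigenform hg (↑S : Set ℕ)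
  have hint : ∀ y : χ.range, ∃ n : ℤ, (n : ℂ) = (y : ℂ) := by
    rintro ⟨y, ⟨t, ht⟩, rfl⟩
    show ∃ n : ℤ, (n : ℂ) = χ ⟨t, ht⟩
    induction ht using Algebra.adjoin_induction with
    | mem x hx =>
      rcases hx with ⟨ℓ, hℓ, hℓM, hℓS, rfl⟩ | ⟨q, hqM, hq, hqS, rfl⟩
      · exact ⟨b ℓ, (hb ℓ hℓ hℓM).trans (hχ ℓ hℓ hℓM hℓS).symm⟩
      · exact absurd (hS q hq hqM) hqS
    | algebraMap r =>
      exact ⟨r, by
        show _ = χ (algebraMap ℤ (CuspForm.heckeAlgebra M 2 (↑S : Set ℕ)) r)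
        rw [eq_intCast, map_intCast]⟩
    | add x y hx' hy' hx hy =>
      obtain ⟨m, hm⟩ := hx
      obtain ⟨n, hn⟩ := hy
      exact ⟨m + n, by
        show _ = χ (⟨x, hx'⟩ + ⟨y, hy'⟩)
        rw [map_add, ← hm, ← hn, Int.cast_add]⟩
    | mul x y hx' hy' hx hy =>
      obtain ⟨m, hm⟩ := hx
      obtain ⟨n, hn⟩ := hy
      exact ⟨m * n, by
        show _ = χ (⟨x, hx'⟩ * ⟨y, hy'⟩)
        rw [map_mul, ← hm, ← hn, Int.cast_mul]⟩
  choose f hf using hint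
  have hinj : Function.Injective (Int.cast : ℤ → ℂ) := Int.cast_injective
  let φ : χ.range →+* ℤ :=
    { toFun := f
      map_one' := hinj (by rw [hf, OneMemClass.coe_one, Int.cast_one])
      map_mul' := fun a c => hinj (by rw [hf, MulMemClass.coe_mul, Int.cast_mul, hf, hf])
      map_zero' := hinj (by rw [hf, ZeroMemClass.coe_zero, Int.cast_zero])
      map_add' := fun a c => hinj (by rw [hf, AddMemClass.coe_add, Int.cast_add, hf, hf]) }
  refine ⟨χ, (Int.castRingHom O).comp φ, hχ, fun ℓ hℓ hℓM hℓS => ?_⟩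
  show ((f _ : ℤ) : O) = _
  congr 1
  exact hinj ((hf _).trans ((hχ ℓ hℓ hℓM hℓS).trans (hb ℓ hℓ hℓM).symm))

variable (W : WeierstrassCurve ℤ) {b : ℕ → ℤ}

/-- Frobenius traces of the representations attached to `g` and the point counts of `W` agree at
good primes, up to the ambiguity at primes exactly dividing the level. -/
theorem trace_frobenius_eq (H : MultiplicativeLocal) (hg : g.IsNewform)
    (hb : ∀ ℓ : ℕ, ℓ.Prime → ¬ ℓ ∣ M → (b ℓ : ℂ) = qCoeff ⇑g ℓ) {N : ℕ} (hN : N ≠ 0) (hMN : M ∣ N)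
    (hbN : ∀ ℓ : ℕ, ℓ.Prime → ¬ ℓ ∣ N → b ℓ = W.apOfModel ℓ)
    (hbad : ∀ ℓ : ℕ, ℓ.Prime → (ℓ : ℤ) ∣ W.Δ → ℓ ∣ N) (hΔ0 : W.Δ ≠ 0)
    {q : ℕ} (hq : q.Prime) (hgood : W.IsGoodPrimeFor q) (hq2 : ¬ q ^ 2 ∣ M) :
    (¬ q ∣ M ∧ b q = W.apOfModel q) ∨
      (q ∣ M ∧ (W.apOfModel q = q + 1 ∨ W.apOfModel q = -(q + 1))) := by
  classical
  obtain ⟨lam, hlamge, hlam⟩ :=
    Nat.exists_infinite_primes ((b q).natAbs + (W.apOfModel q).natAbs + q + 4)
  haveI := Fact.mk hlam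
  haveI := finite_residueField_padicInt lam
  have hlamq : lam ≠ q := by omega
  have hlam2 : lam ≠ 2 := by omega
  set S : Finset ℕ := insert lam M.primeFactors with hS
  have hlamS : lam ∈ S := Finset.mem_insert_self _ _
  have hMS : ∀ r : ℕ, r.Prime → r ∣ M → r ∈ S := fun r hr hrM =>
    Finset.mem_insert_of_mem (Nat.mem_primeFactors.2 ⟨hr, hrM, NeZero.ne M⟩)
  obtain ⟨chig, iota, hchig, hiota⟩ := exists_intCharacter hg.1 hb S hMS ℤ_[lam]
  have hlamO : (lam : ℤ_[lam]) ∈ IsLocalRing.maximalIdeal ℤ_[lam] := by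
    rw [PadicInt.maximalIdeal_eq_span_p]; exact Ideal.mem_span_singleton_self _
  obtain ⟨O, _, _, _, _, _, _, _, _, _, -, ρ, hρ, hρq⟩ :=
    H hg lam S ℤ_[lam] hlamO chig hchig iota hlamS hMS
  have hpA : (lam : O) ∈ IsLocalRing.maximalIdeal O := by
    have := map_nonunit (algebraMap ℤ_[lam] O) _ hlamO
    rwa [map_natCast] at this
  have hgoodchar : ∀ ℓ : ℕ, ℓ.Prime → ¬ ℓ ∣ M → ℓ ≠ lam → ∀ P : ValuationSubring Qb,
      P.LiesOverPrime ℓ → ∀ φ : GQ, P.IsFrobeniusAt φ ℓ →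
        LinearMap.charpoly (ρ.ρ φ) = X ^ 2 - C ((b ℓ : O)) * X + C ((ℓ : O)) := by
    intro ℓ hℓ hℓM hℓl P hP φ hφ
    have hℓS : ℓ ∉ (↑S : Set ℕ) := by
      simp [hS, hℓl, hℓM]
    rw [hρ ℓ hℓ hℓM hℓS P hP φ hφ, hiota ℓ hℓ hℓM hℓS, map_intCast]
  set bad := insert lam N.primeFactors
  have hgood' : ∀ ℓ : ℕ, ℓ.Prime → ℓ ∉ bad → ¬ ℓ ∣ N ∧ ℓ ≠ lam := fun ℓ hℓ hℓb => by
    simp only [bad, Finset.mem_insert, Nat.mem_primeFactors, not_or] at hℓb
    exact ⟨fun h => hℓb.2 ⟨hℓ, h, hN⟩, hℓb.1⟩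
  obtain ⟨r, hr⟩ := exists_hasMatrix ρ
  have hchar : ∀ ℓ : ℕ, ℓ.Prime → ℓ ∉ bad → ∀ P : ValuationSubring Qb, P.LiesOverPrime ℓ →
      ∀ φ : GQ, P.IsFrobeniusAt φ ℓ →
        LinearMap.charpoly (ρ.ρ φ) = X ^ 2 - C ((W.apOfModel ℓ : O)) * X + C ((ℓ : O)) := by
    intro ℓ hℓ hℓb P hP φ hφ
    obtain ⟨h1, h2⟩ := hgood' ℓ hℓ hℓb
    rw [hgoodchar ℓ hℓ (fun h => h1 (h.trans hMN)) h2 P hP φ hφ, hbN ℓ hℓ h1]
  obtain ⟨Q, hQ⟩ := Galois.exists_liesOverPrime hq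
  obtain ⟨φ, hφ⟩ := Galois.exists_isFrobeniusAt hq hQ
  haveI : CharP (IsLocalRing.ResidueField O) lam := by
    refine (CharP.charP_iff_prime_eq_zero hlam).2 ?_
    rw [← map_natCast (IsLocalRing.residue O), IsLocalRing.residue_eq_zero_iff]
    exact hpA
  have key : ∀ t : ℤ, t.natAbs ≤ (b q).natAbs + q + 1 →
      LinearMap.charpoly (ρ.ρ φ) = X ^ 2 - C ((t : O)) * X + C ((q : O)) → W.apOfModel q = t := by
    intro t htb ht
    have h := (residual_trace W hr (Finset.mem_insert_self _ _) hlam2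
      (fun ℓ hℓ hℓb h => (hgood' ℓ hℓ hℓb).1 (hbad ℓ hℓ h)) hchar hΔ0
      (ZMod.castHom (dvd_refl lam) _) φ).1
    have hrt : (r φ).trace = (t : O) := by
      obtain ⟨bs, hbs⟩ := hr
      rw [← LinearMap.charpoly_toMatrix (ρ.ρ φ) bs, hbs, Matrix.charpoly_fin_two] at ht
      simpa using congrArg (fun F => Polynomial.coeff F 1) ht
    have hE := (EC.galoisTrace_frobenius W hq hgood hQ hφ hlam hlam2 hlamq).1
    rw [hrt, show LinearMap.trace (ZMod lam) _ (torsRep W lam φ) = (W.apOfModel q : ZMod lam) from hE,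
      map_intCast, map_intCast, ← sub_eq_zero, ← Int.cast_sub,
      ← map_intCast (IsLocalRing.residue O), IsLocalRing.residue_eq_zero_iff] at h
    have hd := dvd_of_intCast_mem hpA h
    have := Int.eq_zero_of_dvd_of_natAbs_lt_natAbs hd (by omega)
    omega
  by_cases hqM : q ∣ M
  · refine Or.inr ⟨hqM, ?_⟩
    rcases hρq q hq hlamq.symm hqM hq2 Q hQ φ hφ with h | h
    · exact Or.inl (key (q + 1) (by omega) (by rw [h]; simp))
    · exact Or.inr (key (-(q + 1)) (by omega) (by rw [h]; simp; ring))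
  · exact Or.inl ⟨hqM, (key (b q) (by omega)
      (hgoodchar q hq hqM hlamq.symm Q hQ φ hφ)).symm⟩

/-- Conductor-level matching from the two local statements. -/
theorem isModularModelOfLevel_conductorLevel (H35 : MultiplicativeLocal) (H36 : CarayolLocal)
    (W : WeierstrassCurve ℤ) (hss : W.IsSemistableModel) (N : ℕ)
    (p : ℕ) [Fact p.Prime] (hp2 : p ≠ 2) (hirr : W.ModRepIsIrreducible p)
    (hp2N : ¬ p ^ 2 ∣ N)
    (hN : W.IsModularModelOfLevel N) (hbad : ∀ ℓ : ℕ, ℓ.Prime → (ℓ : ℤ) ∣ W.Δ → ℓ ∣ N)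
    (hN3 : ∀ q : ℕ, q.Prime → ¬ q ^ 3 ∣ N) :
    W.IsModularModelOfLevel W.conductorLevel := by
  classical
  have hN0 : N ≠ 0 := by
    rintro rfl
    exact hN3 2 Nat.prime_two (dvd_zero _)
  have hΔ0 : W.Δ ≠ 0 := by
    intro h
    obtain ⟨ℓ, hℓ, hℓp⟩ := Nat.exists_infinite_primes (N + 1)
    have := Nat.le_of_dvd (Nat.pos_of_ne_zero hN0) (hbad ℓ hℓp (h ▸ dvd_zero _))
    omega
  haveI : NeZero N := ⟨hN0⟩
  obtain ⟨f, hf, hfW⟩ := hN
  obtain ⟨M, g, hMN, hMpos, hg, hgf⟩ := exists_newform_of_eigenform (Nat.pos_of_ne_zero hN0) hf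
  haveI : NeZero M := ⟨hMpos.ne'⟩
  have hgoodN : ∀ ℓ : ℕ, ℓ.Prime → ¬ ℓ ∣ N → qCoeff ⇑g ℓ = (W.apOfModel ℓ : ℂ) := fun ℓ hℓ hℓN =>
    (hgf ℓ hℓ hℓN).trans (hfW ℓ hℓ (fun h => hℓN (hbad ℓ hℓ h)) hℓN)
  have hint : ∀ ℓ : ℕ, ∃ b : ℤ, ℓ.Prime → ¬ ℓ ∣ M → (b : ℂ) = qCoeff ⇑g ℓ := fun ℓ => by
    by_cases h : ℓ.Prime ∧ ¬ ℓ ∣ M
    · obtain ⟨b, hb⟩ := exists_intCast_qCoeff hg.1 N.primeFactors
        (fun r hr hrM hrX => ⟨W.apOfModel r, (hgoodN r hr fun hd =>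
          hrX (Nat.mem_primeFactors.2 ⟨hr, hd, hN0⟩)).symm⟩) h.1 h.2
      exact ⟨b, fun _ _ => hb⟩
    · exact ⟨0, fun h1 h2 => absurd ⟨h1, h2⟩ h⟩
  choose b hb using hint
  have hbN : ∀ ℓ : ℕ, ℓ.Prime → ¬ ℓ ∣ N → b ℓ = W.apOfModel ℓ := fun ℓ hℓ hℓN => by
    have := (hb ℓ hℓ fun h => hℓN (h.trans hMN)).trans (hgoodN ℓ hℓ hℓN)
    exact_mod_cast this
  -- no square divides `M`
  have hsq : ∀ q : ℕ, q.Prime → ¬ q ^ 2 ∣ M := by
    intro q hq hq2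
    have hqp : p ≠ q := fun h => hp2N (h ▸ hq2.trans hMN)
    have hfac : M.factorization q = 2 := by
      have h1 : 2 ≤ M.factorization q :=
        (Nat.Prime.pow_dvd_iff_le_factorization hq (NeZero.ne M)).1 hq2
      have h2 : ¬ 3 ≤ M.factorization q := fun h => hN3 q hq
        (((Nat.Prime.pow_dvd_iff_le_factorization hq (NeZero.ne M)).2 h).trans hMN)
      omega
    haveI := finite_residueField_padicInt p
    set S : Finset ℕ := insert p N.primeFactors with hS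
    have hpS : p ∈ S := Finset.mem_insert_self _ _
    have hMS : ∀ r : ℕ, r.Prime → r ∣ M → r ∈ S := fun r hr hrM =>
      Finset.mem_insert_of_mem (Nat.mem_primeFactors.2 ⟨hr, hrM.trans hMN, hN0⟩)
    obtain ⟨chig, iota, hchig, hiota⟩ := exists_intCharacter hg.1 hb S hMS ℤ_[p]
    have hpO : (p : ℤ_[p]) ∈ IsLocalRing.maximalIdeal ℤ_[p] := by
      rw [PadicInt.maximalIdeal_eq_span_p]; exact Ideal.mem_span_singleton_self _
    have hgS : ∀ ℓ : ℕ, ℓ.Prime → ℓ ∉ S → W.IsGoodPrimeFor ℓ ∧ ¬ ℓ ∣ N := fun ℓ hℓ hℓS =>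
      have h : ¬ ℓ ∣ N := fun h => hℓS (Finset.mem_insert_of_mem (Nat.mem_primeFactors.2 ⟨hℓ, h, hN0⟩))
      ⟨fun hd => h (hbad ℓ hℓ hd), h⟩
    obtain ⟨O, _, _, _, _, _, _, _, _, _, -, ρ, hρ, hρq⟩ :=
      H36 hg p S ℤ_[p] hpO hp2 chig hchig iota hpS hMS (by
        intro O _ _ _ _ _ _ _ _ _ _ ρ hρ
        have hpA : (p : O) ∈ IsLocalRing.maximalIdeal O := by
          have := map_nonunit (algebraMap ℤ_[p] O) _ hpO
          rwa [map_natCast] at this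
        refine residual_absIrred_odd W hpA hpS hp2 (fun ℓ hℓ hℓS => (hgS ℓ hℓ hℓS).1) ?_ hΔ0 hirr
        intro ℓ hℓ hℓS P hP φ hφ
        have h := (hgS ℓ hℓ hℓS).2
        rw [hρ ℓ hℓ (fun e => hℓS (e ▸ hpS)) (fun e => h (e.trans hMN)) hℓS P hP φ hφ,
          hiota ℓ hℓ (fun e => h (e.trans hMN)) hℓS, map_intCast, hbN ℓ hℓ h])
    refine hρq q hq hqp.symm hfac ?_
    have hpA : (p : O) ∈ IsLocalRing.maximalIdeal O := by
      have := map_nonunit (algebraMap ℤ_[p] O) _ hpO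
      rwa [map_natCast] at this
    obtain ⟨r, hr⟩ := exists_hasMatrix ρ
    refine unipotent_inertia W hpA hr hpS hp2 (fun ℓ hℓ hℓS => (hgS ℓ hℓ hℓS).1) ?_ hΔ0 hq hqp
      (hss q hq)
    intro ℓ hℓ hℓS P hP φ hφ
    have h := (hgS ℓ hℓ hℓS).2
    rw [hρ ℓ hℓ (fun e => h (e.trans hMN)) hℓS P hP φ hφ,
      hiota ℓ hℓ (fun e => h (e.trans hMN)) hℓS, map_intCast, hbN ℓ hℓ h]
  have key : ∀ q : ℕ, q.Prime → W.IsGoodPrimeFor q → ¬ q ∣ M ∧ b q = W.apOfModel q := by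
    intro q hq hgood
    rcases trace_frobenius_eq W H35 hg hb hN0 hMN hbN hbad hΔ0 hq hgood (hsq q hq) with
      h | ⟨-, h⟩
    · exact h
    · exfalso
      have hH := EC.apOfModel_sq_le W hq hgood
      have h2 : (2 : ℤ) ≤ q := by exact_mod_cast hq.two_le
      rcases h with h | h <;> rw [h] at hH <;> nlinarith
  have hMsq : Squarefree M := Nat.squarefree_iff_prime_squarefree.2 fun q hq h =>
    hsq q hq (by rwa [pow_two])
  have hMC : M ∣ W.conductorLevel := by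
    rw [← Nat.prod_primeFactors_of_squarefree hMsq,
      ← Nat.prod_primeFactors_of_squarefree W.squarefree_conductorLevel]
    refine Finset.prod_dvd_prod_of_subset _ _ _ fun q hq => ?_
    obtain ⟨hqp, hqM, -⟩ := Nat.mem_primeFactors.1 hq
    refine Nat.mem_primeFactors.2 ⟨hqp, ?_, W.conductorLevel_pos.ne'⟩
    rw [W.prime_dvd_conductorLevel_iff hΔ0 hqp]
    by_contra hd
    exact (key q hqp hd).1 hqM
  refine isModularModelOfLevel_of_dvd hMC ⟨g, hg.1, fun q hq hgood hqM => ?_⟩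
  rw [← hb q hq hqM, (key q hq hgood).2]

end Fermat.Agent.ConductorMatch
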