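import Mathlib

/-!
# Nodal normal form
-/

set_option autoImplicit false

namespace Fermat.Agent.ConductorMatch

open WeierstrassCurve

/-- The nodal cubic `y² + xy = x³`. -/
def nodalCubic (k : Type*) [CommRing k] : WeierstrassCurve k := ⟨1, 0, 0, 0, 0⟩

/-- A singular curve with `c₄ ≠ 0` over an algebraically closed field is a nodal cubic. -/
theorem exists_vc_nodal {k : Type*} [Field k] [IsAlgClosed k] (W : WeierstrassCurve k)
    (hΔ : W.Δ = 0) (hc : W.c₄ ≠ 0) : ∃ C : VariableChange k, C • W = nodalCubic k := by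
  set C₁ : VariableChange k := ⟨1, (18 * W.b₆ - W.b₂ * W.b₄) / W.c₄, 0, 0⟩ with hC₁
  set V := C₁ • W with hV
  have hd : V.Δ = 0 := by rw [hV, variableChange_Δ, hΔ, mul_zero]
  have hc4 : V.c₄ = W.c₄ := by rw [hV, variableChange_c₄]; simp [hC₁]
  have hr : (18 * W.b₆ - W.b₂ * W.b₄) = C₁.r * W.c₄ := by
    rw [hC₁]; exact (div_mul_cancel₀ _ hc).symm
  have h18 : 18 * V.b₆ = V.b₂ * V.b₄ := by
    rw [hV, variableChange_b₆, variableChange_b₂, variableChange_b₄]
    simp only [hC₁, inv_one, Units.val_one, one_pow, one_mul] at hr ⊢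
    rw [WeierstrassCurve.c₄] at hr
    simp only [WeierstrassCurve.c₄]
    linear_combination hr
  have hrel := V.b_relation
  have hd' : -V.b₂ ^ 2 * V.b₈ - 8 * V.b₄ ^ 3 - 27 * V.b₆ ^ 2 + 9 * V.b₂ * V.b₄ * V.b₆ = 0 := hd
  have hc' : V.b₂ ^ 2 - 24 * V.b₄ ≠ 0 := by rw [← WeierstrassCurve.c₄, hc4]; exact hc
  have h4 : V.b₄ = 0 := by
    have h : V.b₄ * (V.b₂ ^ 2 - 24 * V.b₄) ^ 2 = 0 := by
      linear_combination (-72 : k) * hd' - 18 * V.b₂ ^ 2 * hrel +
        (-V.b₂ ^ 3 - 108 * V.b₆ + 30 * V.b₂ * V.b₄) * h18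
    exact (mul_eq_zero.1 h).resolve_right (pow_ne_zero 2 hc')
  have h2 : V.b₂ ≠ 0 := fun e => hc' (by rw [e, h4]; ring)
  rw [h4] at h18 hd' hrel
  have h6 : V.b₆ = 0 := by
    have h : V.b₂ ^ 3 * V.b₆ = 0 := by
      linear_combination (-4 : k) * hd' - V.b₂ ^ 2 * hrel - 6 * V.b₆ * h18
    exact (mul_eq_zero.1 h).resolve_left (pow_ne_zero 3 h2)
  rw [h6] at hd'
  have h8 : V.b₈ = 0 := by
    have h : V.b₂ ^ 2 * V.b₈ = 0 := by linear_combination -hd'
    exact (mul_eq_zero.1 h).resolve_left (pow_ne_zero 2 h2)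
  obtain ⟨t, ht⟩ := IsAlgClosed.exists_root
    (Polynomial.C (1 : k) * Polynomial.X ^ 2 + Polynomial.C V.a₃ * Polynomial.X + Polynomial.C (-V.a₆))
    (by rw [Polynomial.degree_quadratic one_ne_zero]; decide)
  obtain ⟨s, hs⟩ := IsAlgClosed.exists_root
    (Polynomial.C (1 : k) * Polynomial.X ^ 2 + Polynomial.C V.a₁ * Polynomial.X + Polynomial.C (-V.a₂))
    (by rw [Polynomial.degree_quadratic one_ne_zero]; decide)
  simp only [Polynomial.IsRoot.def, Polynomial.eval_add, Polynomial.eval_mul, Polynomial.eval_C,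
    Polynomial.eval_pow, Polynomial.eval_X, one_mul] at ht hs
  rw [WeierstrassCurve.b₆] at h6
  rw [WeierstrassCurve.b₄] at h4
  rw [WeierstrassCurve.b₈] at h8
  have e3 : V.a₃ + 2 * t = 0 := by
    have h : (V.a₃ + 2 * t) ^ 2 = 0 := by linear_combination h6 + 4 * ht
    exact pow_eq_zero_iff two_ne_zero |>.1 h
  have e4 : V.a₄ - t * V.a₁ = 0 := by
    have h : (V.a₄ - t * V.a₁) ^ 2 = 0 := by
      linear_combination -h8 + (-(V.a₁ ^ 2) - 4 * V.a₂) * ht +
        (V.a₁ ^ 2 * t + 2 * V.a₂ * t + V.a₂ * V.a₃ - V.a₁ * V.a₄) * e3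
    exact pow_eq_zero_iff two_ne_zero |>.1 h
  have hu : V.a₁ + 2 * s ≠ 0 := fun e => h2 (by
    rw [WeierstrassCurve.b₂]; linear_combination (-4 : k) * hs + (V.a₁ + 2 * s) * e)
  refine ⟨(⟨Units.mk0 _ hu, 0, s, t⟩ : VariableChange k) * C₁, ?_⟩
  rw [mul_smul, ← hV]
  ext <;> simp [variableChange_a₁, variableChange_a₂, variableChange_a₃, variableChange_a₄,
    variableChange_a₆, nodalCubic]
  · field_simp
  · right; linear_combination -hs
  · right; exact e3
  · right; linear_combination e4 - s * e3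
  · right; linear_combination -ht

end Fermat.Agent.ConductorMatch
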