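import Fermat.Agent.Moduli.DivPoly
import Fermat.Agent.ConductorMatch.NodalModel

/-!
# Division polynomials modulo a prime of multiplicative reduction
-/

set_option autoImplicit false

namespace Fermat.Agent.ConductorMatch

open WeierstrassCurve Polynomial
open Fermat.Agent.EC
open Fermat.Agent.Moduli

variable {O : Type*} [CommRing O] [IsDomain O] {K : Type*} [Field K] [IsAlgClosed K] [CharZero K]
  [DecidableEq K] {W : WeierstrassCurve O} {φ : O →+* K}
variable {k : Type*} [Field k] (r : O →+* k)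

/-- `(1 + t)ⁿ - tⁿ`. -/
noncomputable def nodalD (k : Type*) [CommRing k] (n : ℕ) : k[X] := (1 + X) ^ n - X ^ n

lemma nodalD_ne_zero {n : ℕ} (hn : 1 ≤ n) : nodalD k n ≠ 0 := fun e => by
  have := congrArg (Polynomial.eval 0) e
  simp [nodalD, zero_pow (by omega : n ≠ 0)] at this

lemma nodalD_mul (n : ℕ) :
    nodalD k n * nodalD k (n + 2) = nodalD k (n + 1) ^ 2 - (X * (1 + X)) ^ n := by
  simp only [nodalD]
  rw [mul_pow]
  ring

/-- The multiplication pair on the nodal reduction. -/
theorem mulPair_nodal (hφ : Function.Injective φ) [(W.map φ).IsElliptic]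
    (hW : W.map r = nodalCubic k) (n : ℕ) (hn : 1 ≤ n) {a b : O[X]} (h : MulPair W φ n a b) :
    a.map r = X ^ n ^ 2 ∧
      (b.map r).comp (X ^ 2 + X) = (X ^ 2 + X) ^ (n * (n - 1)) * nodalD k n ^ 2 := by
  have hb₂ : r W.b₂ = 1 := by rw [← map_b₂, hW]; simp [nodalCubic, WeierstrassCurve.b₂]
  have hb₄ : r W.b₄ = 0 := by rw [← map_b₄, hW]; simp [nodalCubic, WeierstrassCurve.b₄]
  have hb₆ : r W.b₆ = 0 := by rw [← map_b₆, hW]; simp [nodalCubic, WeierstrassCurve.b₆]
  have hb₈ : r W.b₈ = 0 := by rw [← map_b₈, hW]; simp [nodalCubic, WeierstrassCurve.b₈]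
  induction n using Nat.strong_induction_on generalizing a b with
  | _ n ih =>
    rcases n with _ | _ | _ | n
    · omega
    · obtain ⟨rfl, rfl⟩ := mulPair_unique hφ le_rfl h mulPair_one
      simp [nodalD]
    · obtain ⟨rfl, rfl⟩ := mulPair_unique hφ (by omega) h (mulPair_two (W := W) (φ := φ))
      constructor
      · simp [sP, hb₄, hb₆, hb₈]; ring
      · simp [tP, hb₂, hb₄, hb₆, nodalD]; ring
    · obtain ⟨a'', b'', h''⟩ := exists_mulPair (W := W) hφ (n + 1) (by omega)
      obtain ⟨a₂, b₂, h₂⟩ := exists_mulPair (W := W) hφ (n + 1 + 1) (by omega)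
      obtain ⟨a', b', h', hU, hS, -⟩ := mulPair_step hφ (by omega) h₂ h''
      obtain ⟨rfl, rfl⟩ := mulPair_unique hφ (by omega) h h'
      obtain ⟨ha'', hb''⟩ := ih (n + 1) (by omega) (by omega) h''
      obtain ⟨ha₂, hb₂'⟩ := ih (n + 1 + 1) (by omega) (by omega) h₂
      have hX : (X : k[X]) ≠ 0 := X_ne_zero
      constructor
      · have e := congrArg (Polynomial.map r) hS
        simp only [sP, Polynomial.map_sub, Polynomial.map_mul, Polynomial.map_pow, map_b₄, map_b₆,
          map_b₈, Polynomial.map_C, Polynomial.map_X, hb₄, hb₆, hb₈, map_zero, zero_mul, sub_zero,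
          ha₂, ha''] at e
        refine mul_left_cancel₀ (pow_ne_zero ((n + 1) ^ 2) hX) ?_
        rw [← e]; ring
      · have e := congrArg (fun q : O[X] => (q.map r).comp (X ^ 2 + X)) hU
        simp only [Polynomial.map_sub, Polynomial.map_mul, Polynomial.map_pow, Polynomial.map_X,
          ha₂, sub_comp, mul_comp, pow_comp, X_comp, hb₂', hb''] at e
        have hz : (X ^ 2 + X : k[X]) ≠ 0 := fun e0 => by
          have := congrArg (fun q : k[X] => q.coeff 1) e0
          simp [coeff_X_pow] at this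
        refine mul_left_cancel₀ (mul_ne_zero (pow_ne_zero ((n + 1) * n) hz)
          (pow_ne_zero 2 (nodalD_ne_zero (k := k) (by omega : 1 ≤ n + 1)))) ?_
        simp only [Nat.add_sub_cancel] at e ⊢
        rw [← e, show (X : k[X]) ^ 2 + X = X * (1 + X) by ring]
        generalize hz' : (X : k[X]) * (1 + X) = z
        have hD := nodalD_mul (k := k) (n + 1)
        rw [hz'] at hD
        linear_combination (-(z ^ (2 * n ^ 2 + 6 * n + 6)) *
          (nodalD k (n + 1) * nodalD k (n + 1 + 2) + nodalD k (n + 1 + 1) ^ 2 - z ^ (n + 1))) * hD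

end Fermat.Agent.ConductorMatch
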